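import Fermat.Agent.ECFrob.CH
import Fermat.Agent.ECRed.OrdQbar
import Fermat.Agent.ECRed.Unram
import Fermat.Agent.Frob.Qbar
import Fermat.Prelude.Def_EllipticCurve_FrobeniusTrace
import Fermat.Prelude.Def_FLTPrelim_Modularity

/-!
# The Frobenius relation on torsion points of an elliptic curve over `ℚ`
-/

set_option autoImplicit false
set_option linter.unusedSectionVars false
set_option linter.style.haveILetI false

noncomputable section

namespace Fermat.Agent.ECFrob

open WeierstrassCurve WeierstrassCurve.Affine WeierstrassCurve.Affine.Point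
open Fermat.Agent.ECRed Fermat.Agent.Curves AlgebraicCurve Polynomial

section Card

variable {k : Type*} [Field k] [DecidableEq k] {p : ℕ} [Fact p.Prime] [CharP k p]

lemma exists_zmod {x : k} (h : frobenius k p x = x) :
    ∃ c : ZMod p, (ZMod.castHom dvd_rfl k : ZMod p →+* k) c = x := by
  rw [frobenius_def, ← Subfield.mem_bot_iff_pow_eq_self, ← ZMod.fieldRange_castHom_eq_bot p] at h
  exact h

/-- the points fixed by Frobenius are the rational points -/
theorem card_Fx (E₀ : WeierstrassCurve (ZMod p)) {E : WeierstrassCurve k}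
    (h0 : E₀.map (ZMod.castHom dvd_rfl k : ZMod p →+* k) = E) (hE : E.map (frobenius k p) = E) :
    Nat.card (Fx hE 1) = Nat.card E₀.toAffine.Point := by
  symm
  have hfr : ∀ c : ZMod p, frobenius k p ((ZMod.castHom dvd_rfl k : ZMod p →+* k) c) =
      (ZMod.castHom dvd_rfl k : ZMod p →+* k) c := by
    intro c
    rw [frobenius_def, ← map_pow, ZMod.pow_card]
  have hmem : ∀ P : E₀.toAffine.Point, pmap _ h0 P ∈ Fx hE 1 := by
    intro P
    change frk hE (pmap _ h0 P) = (1 : ℤ) • (pmap _ h0 P)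
    rw [one_smul]
    rcases P with _ | ⟨x, y, hP⟩
    · have : pmap _ h0 (0 : E₀.toAffine.Point) = 0 := pmap_zero _ _
      change frk hE (pmap _ h0 (0 : E₀.toAffine.Point)) = pmap _ h0 (0 : E₀.toAffine.Point)
      rw [this, _root_.map_zero]
    · obtain ⟨h', e⟩ := pmap_some _ h0 hP
      obtain ⟨h'', e'⟩ := pmap_some (frobenius k p) hE h'
      rw [e, frk, e']
      congr 1
      · exact hfr x
      · exact hfr y
  refine Nat.card_eq_of_bijective (fun P => ⟨pmap _ h0 P, hmem P⟩) ⟨?_, ?_⟩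
  · intro P Q h
    exact pmap_injective _ h0 (congrArg Subtype.val h)
  · rintro ⟨T, hT⟩
    have hT' : frk hE T = T := by
      have : frk hE T = (1 : ℤ) • T := hT
      rwa [one_smul] at this
    rcases T with _ | ⟨x, y, hP⟩
    · exact ⟨0, Subtype.ext (pmap_zero _ _)⟩
    · obtain ⟨h', e⟩ := pmap_some (frobenius k p) hE hP
      rw [frk, e] at hT'
      obtain ⟨e1, e2⟩ := Point.some.inj hT'
      obtain ⟨a, rfl⟩ := exists_zmod e1
      obtain ⟨b, rfl⟩ := exists_zmod e2
      have hab : E₀.toAffine.Nonsingular a b := by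
        subst h0
        exact (map_nonsingular E₀.toAffine (ZMod.castHom dvd_rfl k : ZMod p →+* k).injective a b).1 hP
      refine ⟨.some a b hab, Subtype.ext ?_⟩
      obtain ⟨h2, e2⟩ := pmap_some _ h0 hab
      exact e2

end Card

/-- algebraic closure of `ℚ` -/
local notation "Qb" => AlgebraicClosure ℚ

attribute [local instance] Fermat.Agent.Frob.isAlgebraic_Qbar

section Residue

variable (A : ValuationSubring Qb)

/-- algebraically closed field containing the residue field -/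
abbrev kA := AlgebraicClosure (IsLocalRing.ResidueField A)

instance : DecidableEq (kA A) := Classical.decEq _

/-- reduction data attached to a place of `Qbar` -/
def resData : RedData Qb (kA A) where
  A := A
  π := (algebraMap (IsLocalRing.ResidueField A) (kA A)).comp (IsLocalRing.residue A)
  loc a := by
    rw [RingHom.comp_apply, ← IsLocalRing.residue_eq_zero_iff]
    exact ⟨fun h => (algebraMap _ (kA A)).injective (h.trans (_root_.map_zero _).symm),
      fun h => by rw [h, _root_.map_zero]⟩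

variable {A} {ℓ : ℕ}

lemma nat_mem_max (hA : A.LiesOverPrime ℓ) : ((ℓ : ℕ) : A) ∈ IsLocalRing.maximalIdeal A := by
  have h : ((ℓ : ℕ) : Qb) ∈ A.nonunits := hA
  rw [ValuationSubring.mem_nonunits_iff_exists_mem_maximalIdeal] at h
  obtain ⟨h1, h2⟩ := h
  have : (⟨((ℓ : ℕ) : Qb), h1⟩ : A) = ((ℓ : ℕ) : A) := Subtype.ext (by simp)
  rwa [this] at h2

lemma charP_res [hℓ : Fact ℓ.Prime] (hA : A.LiesOverPrime ℓ) : CharP (kA A) ℓ := by
  have h0 : ((ℓ : ℕ) : IsLocalRing.ResidueField A) = 0 := by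
    have := (IsLocalRing.residue_eq_zero_iff _).2 (nat_mem_max hA)
    simpa using this
  haveI : CharP (IsLocalRing.ResidueField A) ℓ := by
    have h1 := CharP.ringChar_of_prime_eq_zero hℓ.out h0
    rw [← h1]
    exact ringChar.charP _
  exact charP_of_injective_algebraMap (algebraMap (IsLocalRing.ResidueField A) (kA A)).injective ℓ

section Main

variable (A) (W : WeierstrassCurve ℤ)

/-- the base change of `W` to `Qbar` -/
abbrev WQ : WeierstrassCurve Qb := (W.map (Int.castRingHom ℚ)).map (algebraMap ℚ Qb)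

/-- the reduction of `W` in the residue field -/
abbrev Wr : WeierstrassCurve (kA A) := W.map (Int.castRingHom (kA A))

lemma hKA : (resData A).WK (W.map (Int.castRingHom (resData A).A)) = WQ W := by
  rw [RedData.WK, WQ, WeierstrassCurve.map_map, WeierstrassCurve.map_map]
  exact congrArg W.map (RingHom.ext_int _ _)

lemma hkA : (resData A).Wk (W.map (Int.castRingHom (resData A).A)) = Wr A W := by
  rw [RedData.Wk, Wr, WeierstrassCurve.map_map]
  exact congrArg W.map (RingHom.ext_int _ _)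

variable {A} {W}

lemma hΔA [Fact ℓ.Prime] (hA : A.LiesOverPrime ℓ) (hW : W.IsGoodPrimeFor ℓ) :
    (resData A).π (W.map (Int.castRingHom (resData A).A)).Δ ≠ 0 := by
  haveI := charP_res hA
  rw [map_Δ]
  have : (resData A).π (Int.castRingHom (resData A).A W.Δ) = ((W.Δ : ℤ) : kA A) := by
    simp
  rw [this]
  intro h
  exact hW ((CharP.intCast_eq_zero_iff (kA A) ℓ _).1 h)

lemma hΔr [Fact ℓ.Prime] (hA : A.LiesOverPrime ℓ) (hW : W.IsGoodPrimeFor ℓ) :
    (Wr A W).Δ ≠ 0 := by
  haveI := charP_res hA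
  rw [map_Δ]
  intro h
  exact hW ((CharP.intCast_eq_zero_iff (kA A) ℓ _).1 h)

/-- reduction of points -/
def redA [Fact ℓ.Prime] (hA : A.LiesOverPrime ℓ) (hW : W.IsGoodPrimeFor ℓ) :
    (WQ W).toAffine.Point →+ (Wr A W).toAffine.Point :=
  (resData A).rhom (hΔA hA hW) (hKA A W) (hkA A W)

lemma integralK (hq : ℓ.Prime) (hA : A.LiesOverPrime ℓ) :
    (KummerLine.ofCurve (WQ W).toAffine).Integral (ordFnAt A hq hA) := by
  have key : ∀ z : ℤ, (ordFnAt A hq hA).Ge 0 (z : Qb) := fun z => OrdFn.ge_intCast z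
  refine ⟨?_, ?_, ?_, ?_⟩
  · change (ordFnAt A hq hA).Ge 0 (WQ W).b₂
    rw [WQ, map_b₂, map_b₂]; simpa using key W.b₂
  · change (ordFnAt A hq hA).Ge 0 (WQ W).b₄
    rw [WQ, map_b₄, map_b₄]; simpa using key W.b₄
  · change (ordFnAt A hq hA).Ge 0 (WQ W).b₆
    rw [WQ, map_b₆, map_b₆]; simpa using key W.b₆
  · change (ordFnAt A hq hA).Ge 0 (WQ W).b₈
    rw [WQ, map_b₈, map_b₈]; simpa using key W.b₈

lemma nat_unit (hq : ℓ.Prime) (hA : A.LiesOverPrime ℓ) {n : ℕ} (hn : ¬ ℓ ∣ n) :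
    (ordFnAt A hq hA).Eq 0 (n : Qb) := by
  have hn0 : n ≠ 0 := by rintro rfl; exact hn (dvd_zero _)
  have hnQ : (n : Qb) ≠ 0 := by exact_mod_cast hn0
  have h1 := (ordFnAt_ge A hq hA (n : Qb)).2 (by exact_mod_cast natCast_mem A n)
  have h2 : ¬ (ordFnAt A hq hA).Gt 0 (n : Qb) := by
    intro h
    have h3 := (ordFnAt_gt A hq hA (n : Qb)).1 h
    rw [ValuationSubring.mem_nonunits_iff] at h3
    have := val_int_of_coprime A hq hA (n := (n : ℤ)) (by exact_mod_cast hn)
    push_cast at this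
    rw [this] at h3
    exact lt_irrefl _ h3
  rw [OrdFn.not_gt_iff] at h2
  rw [OrdFn.ge_iff hnQ] at h1
  exact ⟨hnQ, le_antisymm h2.2 h1⟩

/-- reduction is injective on torsion prime to `ℓ` -/
theorem redA_injective [hℓ : Fact ℓ.Prime] (hA : A.LiesOverPrime ℓ) (hW : W.IsGoodPrimeFor ℓ)
    {n : ℕ} (hn : ¬ ℓ ∣ n) {P : (WQ W).toAffine.Point} (hP : n • P = 0) (h : redA hA hW P = 0) :
    P = 0 := by
  rcases ((resData A).rhom_eq_zero_iff (hΔA hA hW) (hKA A W) (hkA A W)).1 h with h0 | h0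
  · exact h0
  · by_contra hP0
    apply h0
    have := KummerLine.integral_of_torsion (integralK (W := W) hℓ.out hA)
      (nat_unit hℓ.out hA hn) hP0 hP
    exact (ordFnAt_ge A hℓ.out hA _).1 this

lemma pmap_eq_smul (σ : Qb ≃ₐ[ℚ] Qb) (h : (WQ W).map (σ : Qb →+* Qb) = WQ W)
    (P : ((W.map (Int.castRingHom ℚ))⁄Qb).Point) :
    pmap (σ : Qb →+* Qb) h (P : (WQ W).toAffine.Point) = (σ • P : _) := by
  rcases P with _ | ⟨x, y, hP⟩
  · exact pmap_zero _ _
  · obtain ⟨h', e⟩ := pmap_some (σ : Qb →+* Qb) h hP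
    exact e

lemma hσW (σ : Qb ≃ₐ[ℚ] Qb) : (WQ W).map (σ : Qb →+* Qb) = WQ W := by
  rw [WQ, WeierstrassCurve.map_map]
  congr 1
  ext x
  simp

lemma hfrW [Fact ℓ.Prime] (hA : A.LiesOverPrime ℓ) :
    haveI := charP_res hA
    (Wr A W).map (frobenius (kA A) ℓ) = Wr A W := by
  haveI := charP_res hA
  rw [Wr, WeierstrassCurve.map_map]
  exact congrArg W.map (RingHom.ext_int _ _)

open scoped Pointwise in
/-- reduction intertwines a Frobenius element with the Frobenius -/
theorem redA_smul [Fact ℓ.Prime] (hA : A.LiesOverPrime ℓ) (hW : W.IsGoodPrimeFor ℓ)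
    {σ : Qb ≃ₐ[ℚ] Qb} (hσ : A.IsFrobeniusAt σ ℓ) (P : ((W.map (Int.castRingHom ℚ))⁄Qb).Point) :
    haveI := charP_res hA
    redA hA hW (σ • P : ((W.map (Int.castRingHom ℚ))⁄Qb).Point) =
      frk (hfrW (W := W) hA) (redA hA hW P) := by
  haveI := charP_res hA
  obtain ⟨hdec, hres⟩ := hσ
  have hstab : σ • A = A := hdec
  have hmem : ∀ x : Qb, (σ : Qb →+* Qb) x ∈ (resData A).A ↔ x ∈ (resData A).A := by
    intro x
    change σ x ∈ A ↔ x ∈ A
    constructor
    · intro h
      have h1 : σ • x ∈ σ • A := by rw [hstab]; exact h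
      exact (ValuationSubring.smul_mem_pointwise_smul_iff).1 h1
    · intro h
      have h1 : σ • x ∈ σ • A := (ValuationSubring.smul_mem_pointwise_smul_iff).2 h
      rw [hstab] at h1; exact h1
  rw [← pmap_eq_smul σ (hσW σ)]
  refine (resData A).rhom_pmap (hΔA hA hW) (hKA A W) (hkA A W) (σ : Qb →+* Qb)
    (frobenius (kA A) ℓ) hmem ?_ (hσW σ) (hfrW hA) P
  intro a
  let b : A := ⟨(a : Qb), a.2⟩
  have e2 := hres (IsLocalRing.residue A b)
  rw [← IsLocalRing.ResidueField.residue_smul] at e2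
  rw [frobenius_def]
  change algebraMap (IsLocalRing.ResidueField A) (kA A) (IsLocalRing.residue A
      ((⟨σ, hdec⟩ : A.decompositionSubgroup ℚ) • b)) =
    (algebraMap (IsLocalRing.ResidueField A) (kA A) (IsLocalRing.residue A b)) ^ ℓ
  rw [← map_pow, ← e2]

lemma trFrob_eq [Fact ℓ.Prime] (hA : A.LiesOverPrime ℓ) :
    haveI := charP_res hA
    trFrob (hfrW (W := W) hA) = W.apOfModel ℓ := by
  haveI := charP_res hA
  have h0 : (W.reductionMod ℓ).map (ZMod.castHom dvd_rfl (kA A) : ZMod ℓ →+* kA A) = Wr A W := by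
    rw [reductionMod, Wr, WeierstrassCurve.map_map]
    exact congrArg W.map (RingHom.ext_int _ _)
  rw [trFrob, card_Fx (W.reductionMod ℓ) h0, apOfModel, traceOfFrobenius, WeierstrassCurve.card,
    Nat.card_zmod]

end Main

end Residue

open Fermat.Agent.Frob in
/-- **Cayley–Hamilton for Frobenius elements on torsion points.** -/
theorem frob_rel_torsion (W : WeierstrassCurve ℤ) {ℓ : ℕ} (hℓ : ℓ.Prime) (hW : W.IsGoodPrimeFor ℓ)
    {A : ValuationSubring Qb} (hA : A.LiesOverPrime ℓ) {σ : Qb ≃ₐ[ℚ] Qb}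
    (hσ : A.IsFrobeniusAt σ ℓ) {n : ℕ} (hn : ¬ ℓ ∣ n)
    {P : ((W.map (Int.castRingHom ℚ))⁄Qb).Point} (hP : n • P = 0) :
    σ • σ • P - W.apOfModel ℓ • (σ • P) + (ℓ : ℤ) • P = 0 := by
  haveI : Fact ℓ.Prime := ⟨hℓ⟩
  haveI := charP_res hA
  have hs : ∀ Q : ((W.map (Int.castRingHom ℚ))⁄Qb).Point, n • Q = 0 → n • (σ • Q) = 0 := by
    intro Q hQ
    have := (Point.map (W' := W.map (Int.castRingHom ℚ)) σ.toAlgHom).map_nsmul n Q
    rw [hQ, _root_.map_zero] at this
    exact this.symm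
  have htors : n • (σ • σ • P - W.apOfModel ℓ • (σ • P) + (ℓ : ℤ) • P) = 0 := by
    rw [nsmul_add, nsmul_sub, hs _ (hs _ hP), smul_comm n, hs _ hP, smul_comm n, hP, zsmul_zero,
      zsmul_zero, sub_zero, _root_.add_zero]
  refine redA_injective hA hW hn htors ?_
  have h1 := frob_rel (hΔr hA hW) (hfrW (W := W) hA) (redA hA hW P)
  rw [trFrob_eq hA] at h1
  have h2 : redA hA hW (σ • σ • P - W.apOfModel ℓ • (σ • P) + (ℓ : ℤ) • P :
      ((W.map (Int.castRingHom ℚ))⁄Qb).Point) =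
      redA hA hW (σ • σ • P : ((W.map (Int.castRingHom ℚ))⁄Qb).Point) -
      W.apOfModel ℓ • redA hA hW (σ • P : ((W.map (Int.castRingHom ℚ))⁄Qb).Point) +
        (ℓ : ℤ) • redA hA hW P := by
    erw [map_add, map_sub, map_zsmul, map_zsmul]
  rw [h2, redA_smul hA hW hσ, redA_smul hA hW hσ]
  exact h1

end Fermat.Agent.ECFrob
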