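import Fermat.Agent.ECFrob.Spec

/-!
# The characteristic polynomial of Frobenius on an elliptic curve over a finite prime field
-/

set_option autoImplicit false
set_option linter.unusedSectionVars false
set_option linter.style.haveILetI false

noncomputable section

namespace Fermat.Agent.ECFrob

open WeierstrassCurve WeierstrassCurve.Affine WeierstrassCurve.Affine.Point
open Fermat.Agent.ECRed Fermat.Agent.Curves AlgebraicCurve Polynomial

section Abstract

variable {k : Type*} [Field k] [IsAlgClosed k]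

/-- the degree function on points -/
def hgt (k : Type*) [Field k] [IsAlgClosed k] (F : Type*) [Field F] [Algebra k F]
    [IsFunctionField k F] [DecidableEq F] (E : WeierstrassCurve k)
    (P : (E.map (algebraMap k F)).toAffine.Point) : ℤ :=
  ht k (KummerLine.ofCurve (E.map (algebraMap k F)).toAffine) P

variable {F : Type*} [Field F] [Algebra k F] [IsFunctionField k F] [DecidableEq F]
  {E : WeierstrassCurve k}

lemma hgt_eq (P : (E.map (algebraMap k F)).toAffine.Point) :
    hgt k F E P = Divisor.degree (poleDivisor (k := k) (xN P)) := rfl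

lemma isQuad_hgt (hΔ : E.Δ ≠ 0) : IsQuad (hgt k F E) := ⟨fun P Q => ht_law (constK hΔ) P Q⟩

lemma hgt_ge (P : (E.map (algebraMap k F)).toAffine.Point) (S : Finset (Place k F))
    (hS : ∀ w ∈ S, P ≠ 0 ∧ xN P ∉ w.toValuationSubring) :
    2 * (S.card : ℤ) ≤ hgt k F E P := ht_ge P S hS

/-- a point of height zero specializing to zero is zero -/
lemma eq_zero_of_hgt [DecidableEq k] (hΔ : E.Δ ≠ 0) {P : (E.map (algebraMap k F)).toAffine.Point}
    (h : hgt k F E P = 0) (w : Place k F) (hw : spec hΔ w P = 0) : P = 0 := by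
  rcases (spec_eq_zero_iff hΔ w).1 hw with h0 | h0
  · exact h0
  · exfalso
    obtain ⟨c, hc⟩ := ht_eq_zero h
    apply h0
    have : xN P = algebraMap k F c := hc
    rw [this]
    exact w.algebraMap_mem' c

/-- multiplicativity of the pole degree for homomorphisms of function fields -/
lemma deg_pole_map {F F' : Type*} [Field F] [Field F'] [Algebra k F] [Algebra k F']
    [IsFunctionField k F] [IsFunctionField k F'] (ι : F →ₐ[k] F') :
    ∃ d : ℤ, ∀ t : F, Transcendental k t →
      Divisor.degree (poleDivisor (k := k) (ι t)) = d * Divisor.degree (poleDivisor (k := k) t) := by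
  letI : Algebra F F' := ι.toRingHom.toAlgebra
  haveI : IsScalarTower k F F' :=
    IsScalarTower.of_algebraMap_eq fun x => (ι.commutes x).symm
  haveI : FiniteDimensional F F' := finiteDimensional_of_isFunctionField (k := k)
  refine ⟨Module.finrank F F', fun t ht => ?_⟩
  have ht' : Transcendental k (ι t) := by
    have : Function.Injective ι := ι.toRingHom.injective
    rw [transcendental_iff] at ht ⊢
    intro q hq
    apply ht
    apply this
    rw [_root_.map_zero, ← hq, ← Polynomial.aeval_algHom_apply]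
  haveI := finiteDimensional_adjoin_simple ht
  rw [degree_poleDivisor ht, degree_poleDivisor ht']
  have := finrank_map (k := k) (F := F) (F' := F') t
  exact_mod_cast this

/-- the Frobenius multiplies the degree by `p` -/
lemma hgt_frob {p : ℕ} [Fact p.Prime] [CharP F p]
    (hF : (E.map (algebraMap k F)).map (frobenius F p) = E.map (algebraMap k F))
    (P : (E.map (algebraMap k F)).toAffine.Point) :
    hgt k F E (pmap (frobenius F p) hF P) = p * hgt k F E P := by
  rw [hgt_eq, hgt_eq, xN_pmap, frobenius_def]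
  have : poleDivisor (k := k) (xN P ^ p) = p • poleDivisor (xN P) := by
    ext w
    rw [Finsupp.smul_apply, poleDivisor_apply, poleDivisor_apply, ord_pow, nsmul_eq_mul,
      mul_max_of_nonneg _ _ (by positivity)]
    ring_nf
  rw [this, map_nsmul, nsmul_eq_mul]

end Abstract

variable {k : Type*} [Field k] [IsAlgClosed k] [DecidableEq k] {E : WeierstrassCurve k}
  (hΔ : E.Δ ≠ 0)

section General

variable [DecidableEq (FF E)]

omit [DecidableEq k] [IsAlgClosed k] [DecidableEq (FF E)] in
lemma gen_ne_zero : gen E hΔ ≠ 0 := by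
  rw [gen]
  exact some_ne_zero _

lemma hgt_gen : hgt k (FF E) E (gen E hΔ) = 2 := by
  classical
  apply le_antisymm
  · rw [hgt_eq, gen, xN_some, degree_poleDivisor (transcendental_genX E)]
    exact_mod_cast finrank_le_two E
  · obtain ⟨w, hw⟩ := exists_spec hΔ (0 : E.toAffine.Point)
    have h0 := gen_ne_zero hΔ
    have h1 := (spec_eq_zero_iff hΔ w).1 hw
    have := hgt_ge (gen E hΔ) {w} (by
      intro w' hw'
      rw [Finset.mem_singleton] at hw'
      subst hw'
      exact ⟨h0, h1.resolve_left h0⟩)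
    simpa using this

/-- the endomorphism of the function field attached to a non-constant point -/
lemma exists_endo (P : (EF E).toAffine.Point) (hP : Transcendental k (xN P)) :
    ∃ ι : FF E →ₐ[k] FF E, ∃ h : (EF E).map (ι : FF E →+* FF E) = EF E,
      pmap (ι : FF E →+* FF E) h (gen E hΔ) = P := by
  rcases P with _ | ⟨x, y, hxy⟩
  · exfalso
    apply hP
    change IsAlgebraic k (xN (0 : (EF E).toAffine.Point))
    rw [xN_zero]
    exact isAlgebraic_one
  · obtain ⟨ι, hx, hy⟩ := exists_hom E hxy.1 hP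
    have h : (EF E).map (ι : FF E →+* FF E) = EF E := by
      rw [EF, WeierstrassCurve.map_map]
      congr 1
      exact ι.comp_algebraMap
    refine ⟨ι, h, ?_⟩
    obtain ⟨h', e⟩ := pmap_some (ι : FF E →+* FF E) h
      ((equation_iff_nonsingular_of_Δ_ne_zero (EF_Δ E hΔ)).1 (gen_equation E))
    rw [gen, e]
    congr 1

/-- multiplicativity of the degree -/
lemma hgt_comp (ι : FF E →ₐ[k] FF E) (h : (EF E).map (ι : FF E →+* FF E) = EF E)
    (Q : (EF E).toAffine.Point) :
    2 * hgt k (FF E) E (pmap (ι : FF E →+* FF E) h Q) =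
      hgt k (FF E) E (pmap (ι : FF E →+* FF E) h (gen E hΔ)) * hgt k (FF E) E Q := by
  obtain ⟨d, hd⟩ := deg_pole_map ι
  have hcoe : ∀ t, (ι : FF E →+* FF E) t = ι t := fun _ => rfl
  have hG := hgt_gen hΔ
  have h1 : hgt k (FF E) E (pmap (ι : FF E →+* FF E) h (gen E hΔ)) = d * 2 := by
    rw [hgt_eq, xN_pmap, gen, xN_some, hcoe, hd _ (transcendental_genX E)]
    rw [hgt_eq, gen, xN_some] at hG
    rw [hG]
  rw [h1]
  rcases transcendental_or (k := k) (xN Q) with hQ | ⟨c, hQ⟩
  · rw [hgt_eq, hgt_eq, xN_pmap, hcoe, hd _ hQ]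
    ring
  · have hc : poleDivisor (k := k) (algebraMap k (FF E) c) = 0 := by
      ext w; simp [ord_algebraMap]
    rw [hgt_eq, hgt_eq, xN_pmap, hcoe, hQ, ι.commutes, hc]
    simp

end General

section Frob

variable {p : ℕ} [Fact p.Prime] [CharP k p] (hE : E.map (frobenius k p) = E)

instance charP_FF : CharP (FF E) p :=
  charP_of_injective_algebraMap (algebraMap k (FF E)).injective p

include hE in
omit [IsAlgClosed k] [DecidableEq k] in
lemma hEF : (EF E).map (frobenius (FF E) p) = EF E := by
  have h : (frobenius (FF E) p).comp (algebraMap k (FF E)) =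
      (algebraMap k (FF E)).comp (frobenius k p) := by
    ext c
    simp [frobenius_def]
  rw [EF, WeierstrassCurve.map_map, h, ← WeierstrassCurve.map_map, hE]

variable [DecidableEq (FF E)]

/-- Frobenius on the points over `k` -/
abbrev frk : E.toAffine.Point →+ E.toAffine.Point := pmap (frobenius k p) hE

/-- Frobenius on the points over the function field -/
abbrev frF : (EF E).toAffine.Point →+ (EF E).toAffine.Point :=
  pmap (frobenius (FF E) p) (hEF hE)

lemma spec_frob (w : Place k (FF E)) (P : (EF E).toAffine.Point) :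
    spec hΔ w (frF hE P) = frk hE (spec hΔ w P) := by
  have hφ : ∀ x, frobenius (FF E) p x ∈ (placeData w).A ↔ x ∈ (placeData w).A := by
    intro x
    rw [frobenius_def]
    constructor
    · intro h
      rw [← ValuationSubring.valuation_le_one_iff] at h ⊢
      rw [map_pow] at h
      exact (pow_le_one_iff (Fact.out : p.Prime).ne_zero).1 h
    · intro h
      exact pow_mem h p
  refine (placeData w).rhom_pmap (redΔ w hΔ) (redK w E) (redk w E) (frobenius (FF E) p)
    (frobenius k p) hφ ?_ (hEF hE) hE P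
  intro a
  have e : frobenius k p ((placeData w).π a) = (placeData w).π (a ^ p) := by
    rw [frobenius_def, map_pow]
  rw [e]
  exact congrArg (placeData w).π (Subtype.ext (frobenius_def _ _))

lemma frF_gen_ne (s : ℤ) (hs : s ^ 2 = 1) : frF hE (gen E hΔ) - s • gen E hΔ ≠ 0 := by
  intro h
  rw [sub_eq_zero] at h
  have h1 := congrArg (hgt k (FF E) E) h
  rw [hgt_frob, (isQuad_hgt hΔ).zsmul, hs, hgt_gen hΔ] at h1
  have := (Fact.out : p.Prime).two_le
  omega

lemma lower (s : ℤ) (hs : s ^ 2 = 1) (S : Finset E.toAffine.Point)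
    (hS : ∀ T ∈ S, frk hE T = s • T) :
    2 * (S.card : ℤ) ≤ hgt k (FF E) E (frF hE (gen E hΔ) - s • gen E hΔ) := by
  classical
  choose w hw using exists_spec hΔ
  have hinj : Function.Injective w := fun T T' h => by
    rw [← hw T, ← hw T', h]
  rw [← Finset.card_image_of_injective S hinj]
  refine hgt_ge _ _ fun v hv => ?_
  rw [Finset.mem_image] at hv
  obtain ⟨T, hT, rfl⟩ := hv
  have h0 := frF_gen_ne hΔ hE s hs
  refine ⟨h0, ?_⟩
  have h1 : spec hΔ (w T) (frF hE (gen E hΔ) - s • gen E hΔ) = 0 := by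
    rw [map_sub, map_zsmul, spec_frob, hw, hS T hT, sub_self]
  exact ((spec_eq_zero_iff hΔ _).1 h1).resolve_left h0

/-- the points on which Frobenius acts as `s` -/
def Fx (s : ℤ) : Set E.toAffine.Point := {T | frk hE T = s • T}

include hΔ in
omit [DecidableEq (FF E)] in
lemma Fx_finite (s : ℤ) (hs : s ^ 2 = 1) : (Fx hE s).Finite := by
  classical
  by_contra hinf
  have hinf' : (Fx hE s).Infinite := hinf
  obtain ⟨S, hS, hcard⟩ := hinf'.exists_subset_card_eq
    ((hgt k (FF E) E (frF hE (gen E hΔ) - s • gen E hΔ)).toNat + 1)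
  have h1 := lower hΔ hE s hs S (fun T hT => hS hT)
  rw [hcard] at h1
  push_cast at h1
  have := Int.self_le_toNat (hgt k (FF E) E (frF hE (gen E hΔ) - s • gen E hΔ))
  omega

lemma lower' (s : ℤ) (hs : s ^ 2 = 1) :
    2 * (Nat.card (Fx hE s) : ℤ) ≤ hgt k (FF E) E (frF hE (gen E hΔ) - s • gen E hΔ) := by
  classical
  have hfin := Fx_finite hΔ hE s hs
  have := lower hΔ hE s hs hfin.toFinset (fun T hT => (hfin.mem_toFinset.1 hT : T ∈ Fx hE s))
  rwa [← Set.ncard_eq_toFinset_card _ hfin] at this

include hΔ in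
omit [DecidableEq (FF E)] in
lemma count : 2 * (p + 1) ≤ Nat.card (Fx hE 1) + Nat.card (Fx hE (-1)) := by
  classical
  haveI := (Fx_finite hΔ hE 1 (by norm_num)).to_subtype
  haveI := (Fx_finite hΔ hE (-1) (by norm_num)).to_subtype
  rw [← Nat.card_sum]
  let pt : Fx hE 1 ⊕ Fx hE (-1) → E.toAffine.Point := Sum.elim (fun T => T.1) (fun T => T.1)
  let cc : ZMod p →+* k := ZMod.castHom dvd_rfl k
  -- a point above each x-coordinate
  have hT : ∀ c : Option (ZMod p), ∃ T : E.toAffine.Point,
      T.xRep = Option.elim c ![1, 0] (fun c => ![cc c, 1]) ∧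
      (frk hE T = T ∨ frk hE T = -T) := by
    rintro (_ | c)
    · exact ⟨0, by simp, Or.inl (_root_.map_zero _)⟩
    · obtain ⟨y, hy⟩ : ∃ y : k, E.toAffine.Equation (cc c) y := by
        let q : k[X] := X ^ 2 + (C (E.a₁ * cc c + E.a₃) * X +
          C (-((cc c) ^ 3 + E.a₂ * (cc c) ^ 2 + E.a₄ * (cc c) + E.a₆)))
        have hq : q.degree = 2 := by
          have hl : (C (E.a₁ * cc c + E.a₃) * X +
            C (-((cc c) ^ 3 + E.a₂ * (cc c) ^ 2 + E.a₄ * (cc c) + E.a₆))).degree <
              ((X : k[X]) ^ 2).degree := by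
            rw [degree_X_pow]
            exact lt_of_le_of_lt degree_linear_le (by norm_num)
          rw [degree_add_eq_left_of_degree_lt hl, degree_X_pow]
          rfl
        obtain ⟨y, hy⟩ := IsAlgClosed.exists_root q (by rw [hq]; norm_num)
        refine ⟨y, ?_⟩
        rw [equation_iff]
        simp only [q, IsRoot, eval_add, eval_mul, eval_pow, eval_X, eval_C] at hy
        linear_combination hy
      have hns := (equation_iff_nonsingular_of_Δ_ne_zero hΔ).1 hy
      refine ⟨.some _ _ hns, xRep_some _, ?_⟩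
      obtain ⟨h', e⟩ := pmap_some (frobenius k p) hE hns
      have hx : (frk hE (.some _ _ hns)).xRep = (Point.some _ _ hns : E.toAffine.Point).xRep := by
        rw [frk, e, xRep_some, xRep_some]
        have : frobenius k p (cc c) = cc c := by
          rw [frobenius_def, ← map_pow, ZMod.pow_card]
        rw [this]
      exact xRep_eq_xRep_iff.1 hx
  choose T hTx hTf using hT
  -- two elements above each
  have hab : ∀ c : Option (ZMod p), ∃ a b : Fx hE 1 ⊕ Fx hE (-1), a ≠ b ∧
      (pt a).xRep = (T c).xRep ∧ (pt b).xRep = (T c).xRep := by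
    intro c
    by_cases h2 : T c = -T c
    · have h1 : frk hE (T c) = T c := (hTf c).elim id (fun h => h.trans h2.symm)
      refine ⟨Sum.inl ⟨T c, ?_⟩, Sum.inr ⟨T c, ?_⟩, by simp, rfl, rfl⟩
      · change frk hE (T c) = (1 : ℤ) • T c
        rw [one_smul]; exact h1
      · change frk hE (T c) = (-1 : ℤ) • T c
        rw [neg_smul, one_smul, ← h2]; exact h1
    · rcases hTf c with h1 | h1
      · refine ⟨Sum.inl ⟨T c, ?_⟩, Sum.inl ⟨-T c, ?_⟩, ?_, rfl, xRep_neg _⟩
        · change frk hE (T c) = (1 : ℤ) • T c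
          rw [one_smul]; exact h1
        · change frk hE (-T c) = (1 : ℤ) • (-T c)
          rw [one_smul, map_neg, h1]
        · intro h
          rw [Sum.inl.injEq, Subtype.mk.injEq] at h
          exact h2 h
      · refine ⟨Sum.inr ⟨T c, ?_⟩, Sum.inr ⟨-T c, ?_⟩, ?_, rfl, xRep_neg _⟩
        · change frk hE (T c) = (-1 : ℤ) • T c
          rw [neg_smul, one_smul]; exact h1
        · change frk hE (-T c) = (-1 : ℤ) • (-T c)
          rw [neg_smul, one_smul, map_neg, h1]
        · intro h
          rw [Sum.inr.injEq, Subtype.mk.injEq] at h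
          exact h2 h
  choose a b hne ha hb using hab
  let f : Option (ZMod p) × Bool → Fx hE 1 ⊕ Fx hE (-1) := fun x => if x.2 then a x.1 else b x.1
  have hfx : ∀ x, (pt (f x)).xRep = (T x.1).xRep := by
    rintro ⟨c, _ | _⟩
    · exact hb c
    · exact ha c
  have hcc : Function.Injective cc := cc.injective
  have hTinj : ∀ c c', (T c).xRep = (T c').xRep → c = c' := by
    rintro (_ | c) (_ | c') h
    · rfl
    · rw [hTx, hTx] at h
      have := congrFun h 1
      simp at this
    · rw [hTx, hTx] at h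
      have := congrFun h 1
      simp at this
    · rw [hTx, hTx] at h
      have := congrFun h 0
      have h2 : cc c = cc c' := this
      rw [hcc h2]
  have hf : Function.Injective f := by
    rintro ⟨c, i⟩ ⟨c', i'⟩ h
    have h1 : c = c' := by
      apply hTinj
      rw [← hfx (c, i), ← hfx (c', i'), h]
    subst h1
    congr 1
    rcases i with _ | _ <;> rcases i' with _ | _
    · rfl
    · exact absurd h.symm (hne c)
    · exact absurd h (hne c)
    · rfl
  have := Nat.card_le_card_of_injective f hf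
  rw [Nat.card_prod, Nat.card_eq_fintype_card, Nat.card_eq_fintype_card, Fintype.card_option,
    ZMod.card, Fintype.card_bool] at this
  omega

lemma hgt_one_neg_one :
    hgt k (FF E) E (frF hE (gen E hΔ) - (1 : ℤ) • gen E hΔ) = 2 * (Nat.card (Fx hE 1) : ℤ) ∧
    hgt k (FF E) E (frF hE (gen E hΔ) - (-1 : ℤ) • gen E hΔ) = 2 * (Nat.card (Fx hE (-1)) : ℤ) := by
  have h1 := lower' hΔ hE 1 (by norm_num)
  have h2 := lower' hΔ hE (-1) (by norm_num)
  have h3 := count hΔ hE
  have h4 := (isQuad_hgt hΔ).law (frF hE (gen E hΔ)) (gen E hΔ)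
  rw [hgt_frob, hgt_gen] at h4
  have e1 : frF hE (gen E hΔ) + gen E hΔ = frF hE (gen E hΔ) - (-1 : ℤ) • gen E hΔ := by
    rw [neg_smul, one_smul, sub_neg_eq_add]
  have e2 : frF hE (gen E hΔ) - gen E hΔ = frF hE (gen E hΔ) - (1 : ℤ) • gen E hΔ := by
    rw [one_smul]
  rw [e1, e2] at h4
  have h3' : (2 * (p + 1) : ℤ) ≤ Nat.card (Fx hE 1) + Nat.card (Fx hE (-1)) := by exact_mod_cast h3
  constructor <;> linarith

/-- The trace of Frobenius. -/
def trFrob : ℤ := p + 1 - (Nat.card (Fx hE 1) : ℤ)

/-- the relation holds for the generic point -/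
lemma gen_rel : frF hE (frF hE (gen E hΔ)) - trFrob hE • frF hE (gen E hΔ) +
    (p : ℤ) • gen E hΔ = 0 := by
  classical
  set G := gen E hΔ with hG
  set h := hgt k (FF E) E with hh
  have Hq : IsQuad h := isQuad_hgt hΔ
  have hp : (p : ℤ) ≠ 0 := by exact_mod_cast (Fact.out : p.Prime).ne_zero
  obtain ⟨n1, n2⟩ := hgt_one_neg_one hΔ hE
  set N : ℤ := (Nat.card (Fx hE 1) : ℤ) with hN
  have ha : trFrob hE = p + 1 - N := rfl
  set a := trFrob hE with haa
  have g0 : h G = 2 := hgt_gen hΔ
  have g1 : h (frF hE G) = p * 2 := by rw [hh, hgt_frob, ← hh, g0]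
  have g2 : h (frF hE (frF hE G)) = p * (p * 2) := by rw [hh, hgt_frob, ← hh, g1]
  have m1 : h (frF hE G - G) = 2 * N := by
    have : frF hE G - G = frF hE G - (1 : ℤ) • G := by rw [one_smul]
    rw [this]; exact n1
  have m2 : h (frF hE G + G) = 4 * p + 4 - 2 * N := by
    have := Hq.law (frF hE G) G
    rw [g0, g1, m1] at this
    linarith
  -- composition
  have htr : Transcendental k (xN (frF hE G - G)) := by
    rcases transcendental_or (k := k) (xN (frF hE G - G)) with ht | ⟨c, hc⟩
    · exact ht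
    · exfalso
      have h0 : h (frF hE G - G) = 0 := by
        rw [hh, hgt_eq, hc]
        have : poleDivisor (k := k) (algebraMap k (FF E) c) = 0 := by
          ext w; simp [ord_algebraMap]
        rw [this, _root_.map_zero]
      have hne := frF_gen_ne hΔ hE 1 (by norm_num)
      rw [one_smul] at hne
      obtain ⟨w, hw⟩ := exists_spec hΔ (0 : E.toAffine.Point)
      apply hne
      refine eq_zero_of_hgt hΔ h0 w ?_
      rw [map_sub, spec_frob, hw, _root_.map_zero, sub_zero]
  obtain ⟨ι, hι, hιG⟩ := exists_endo hΔ (frF hE G - G) htr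
  have hcomm : ∀ Q : (EF E).toAffine.Point, pmap (ι : FF E →+* FF E) hι (frF hE Q) =
      frF hE (pmap (ι : FF E →+* FF E) hι Q) := by
    intro Q
    have c1 : (ι : FF E →+* FF E).comp (frobenius (FF E) p) =
        (frobenius (FF E) p).comp (ι : FF E →+* FF E) := by
      ext x; simp [frobenius_def]
    have d1 : (EF E).map ((ι : FF E →+* FF E).comp (frobenius (FF E) p)) = EF E := by
      rw [← WeierstrassCurve.map_map, hEF hE, hι]
    have d2 : (EF E).map ((frobenius (FF E) p).comp (ι : FF E →+* FF E)) = EF E := by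
      rw [← WeierstrassCurve.map_map, hι, hEF hE]
    rw [frF, pmap_pmap _ _ _ _ d1, pmap_pmap _ _ _ _ d2]
    exact pmap_congr c1 _ _ _
  have m3 : 2 * h (frF hE (frF hE G) - G) = (2 * N) * (4 * p + 4 - 2 * N) := by
    have := hgt_comp hΔ ι hι (frF hE G + G)
    rw [hιG, map_add, hcomm, hιG] at this
    have e : frF hE (frF hE G - G) + (frF hE G - G) = frF hE (frF hE G) - G := by
      rw [map_sub]; abel
    rw [e] at this
    rw [← hh, m1, m2] at this
    exact this
  -- pairings
  have b1 : IsQuad.B h (frF hE G) G = 2 * a := by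
    rw [IsQuad.B, m2, g1, g0, ha]; ring
  have b2 : IsQuad.B h (frF hE (frF hE G)) (frF hE G) = p * (2 * a) := by
    rw [IsQuad.B, ← map_add]
    have : h (frF hE (frF hE G + G)) = p * h (frF hE G + G) := hgt_frob _ _
    rw [this, m2, g1, g2, ha]; ring
  have b3 : IsQuad.B h (frF hE (frF hE G)) G = 2 * a ^ 2 - 4 * p := by
    have l := Hq.law (frF hE (frF hE G)) G
    rw [g2, g0] at l
    rw [IsQuad.B, g2, g0]
    have hN' : N = p + 1 - a := by rw [ha]; ring
    rw [hN'] at m3
    nlinarith [m3, l]
  have hzero : h (frF hE (frF hE G) - a • frF hE G + (p : ℤ) • G) = 0 := by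
    set X2 := frF hE (frF hE G) with hX2
    set X1 := frF hE G with hX1
    have e : X2 - a • X1 + (p : ℤ) • G = X2 + ((-a) • X1 + (p : ℤ) • G) := by
      rw [neg_smul]; abel
    have s1 : h ((-a) • X1 + (p : ℤ) • G) = h ((-a) • X1) + h ((p : ℤ) • G) +
        IsQuad.B h ((-a) • X1) ((p : ℤ) • G) := by rw [IsQuad.B]; ring
    have s2 : h (X2 + ((-a) • X1 + (p : ℤ) • G)) = h X2 + h ((-a) • X1 + (p : ℤ) • G) +
        IsQuad.B h ((-a) • X1 + (p : ℤ) • G) X2 := by
      rw [IsQuad.B_comm, IsQuad.B]; ring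
    rw [e, s2, s1, Hq.zsmul, Hq.zsmul, Hq.B_zsmul_left, Hq.B_zsmul_right, Hq.B_add_left,
      Hq.B_zsmul_left, Hq.B_zsmul_left, IsQuad.B_comm X1 X2, IsQuad.B_comm G X2, b1, b2, b3,
      g0, g1, g2]
    ring
  obtain ⟨w, hw⟩ := exists_spec hΔ (0 : E.toAffine.Point)
  refine eq_zero_of_hgt hΔ hzero w ?_
  rw [map_add, map_sub, map_zsmul, map_zsmul, spec_frob, spec_frob, hw, _root_.map_zero,
    _root_.map_zero, smul_zero, smul_zero, sub_zero, _root_.add_zero]

end Frob

section Final

variable {p : ℕ} [Fact p.Prime] [CharP k p] (hE : E.map (frobenius k p) = E)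

include hΔ in
/-- Cayley–Hamilton for the Frobenius of an elliptic curve over `𝔽_p`. -/
theorem frob_rel (T : E.toAffine.Point) :
    frk hE (frk hE T) - trFrob hE • frk hE T + (p : ℤ) • T = 0 := by
  classical
  obtain ⟨w, hw⟩ := exists_spec hΔ T
  have := congrArg (spec hΔ w) (gen_rel hΔ hE)
  rwa [map_add, map_sub, map_zsmul, map_zsmul, spec_frob, spec_frob, hw, _root_.map_zero] at this

end Final

end Fermat.Agent.ECFrob
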