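import Fermat.Agent.ECFrob.Red
import Fermat.Agent.Curves.Degree

/-!
# The degree function on the points of a constant elliptic curve over a function field
-/

set_option autoImplicit false
set_option linter.unusedSectionVars false
set_option linter.style.haveILetI false

noncomputable section

namespace Fermat.Agent.ECFrob

open Fermat.Agent.ECRed Fermat.Agent.Curves AlgebraicCurve WithZero

section Gauss

variable {K : Type*} [Field K] {Γ : Type*} [LinearOrderedCommGroupWithZero Γ] (v : Valuation K Γ)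

/-- Gauss' lemma for a product of two linear forms -/
lemma gauss (a b c d : K) :
    max (v (a * c)) (max (v (a * d + b * c)) (v (b * d))) =
      max (v a) (v b) * max (v c) (v d) := by
  have h1 : v a ≤ max (v a) (v b) := le_max_left _ _
  have h2 : v b ≤ max (v a) (v b) := le_max_right _ _
  have h3 : v c ≤ max (v c) (v d) := le_max_left _ _
  have h4 : v d ≤ max (v c) (v d) := le_max_right _ _
  apply le_antisymm
  · refine max_le ?_ (max_le ?_ ?_)
    · rw [map_mul]; exact mul_le_mul' h1 h3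
    · refine (Valuation.map_add _ _ _).trans (max_le ?_ ?_)
      · rw [map_mul]; exact mul_le_mul' h1 h4
      · rw [map_mul]; exact mul_le_mul' h2 h3
    · rw [map_mul]; exact mul_le_mul' h2 h4
  · rcases le_total (v a) (v b) with hab | hab
    · rcases le_total (v c) (v d) with hcd | hcd
      · rw [max_eq_right hab, max_eq_right hcd, ← map_mul]
        exact le_max_of_le_right (le_max_right _ _)
      · rcases eq_or_lt_of_le hab with e | hab'
        · rw [max_eq_left hcd, max_eq_left e.symm.le, ← map_mul]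
          exact le_max_left _ _
        · rcases eq_or_lt_of_le hcd with e | hcd'
          · rw [max_eq_right e.symm.le, max_eq_right hab, ← map_mul]
            exact le_max_of_le_right (le_max_right _ _)
          · rw [max_eq_right hab, max_eq_left hcd]
            refine le_max_of_le_right (le_max_of_le_left ?_)
            rw [Valuation.map_add_eq_of_lt_right, map_mul]
            · rw [map_mul, map_mul]
              exact mul_lt_mul'' hab' hcd' zero_le zero_le
    · rcases le_total (v c) (v d) with hcd | hcd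
      · rcases eq_or_lt_of_le hab with e | hab'
        · rw [max_eq_right hcd, max_eq_right e.symm.le, ← map_mul]
          exact le_max_of_le_right (le_max_right _ _)
        · rcases eq_or_lt_of_le hcd with e | hcd'
          · rw [max_eq_left e.symm.le, max_eq_left hab, ← map_mul]
            exact le_max_left _ _
          · rw [max_eq_left hab, max_eq_right hcd]
            refine le_max_of_le_right (le_max_of_le_left ?_)
            rw [Valuation.map_add_eq_of_lt_left, map_mul]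
            · rw [map_mul, map_mul]
              exact mul_lt_mul'' hab' hcd' zero_le zero_le
      · rw [max_eq_left hab, max_eq_left hcd, ← map_mul]
        exact le_max_left _ _

variable {v}
variable {G : Type*} [AddCommGroup G] (κ : KummerLine G K)

/-- a Kummer line with unit discriminant with respect to a valuation -/
structure GoodV (v : Valuation K Γ) : Prop where
  b₂ : v κ.b₂ ≤ 1
  b₄ : v κ.b₄ ≤ 1
  b₆ : v κ.b₆ ≤ 1
  b₈ : v κ.b₈ ≤ 1
  disc : v κ.disc = 1

variable {κ}

lemma v_nat (v : Valuation K Γ) (n : ℕ) : v (n : K) ≤ 1 := by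
  induction n with
  | zero => simp
  | succ n ih =>
    push_cast
    exact (Valuation.map_add _ _ _).trans (max_le ih (by simp))

lemma v_ofNat (v : Valuation K Γ) (n : ℕ) [n.AtLeastTwo] : v (OfNat.ofNat n : K) ≤ 1 := by
  have := v_nat v n
  rwa [← Nat.cast_ofNat (R := K) (n := n)]

lemma vadd {x y : K} {c : Γ} (hx : v x ≤ c) (hy : v y ≤ c) : v (x + y) ≤ c :=
  (Valuation.map_add _ _ _).trans (max_le hx hy)

lemma vsub {x y : K} {c : Γ} (hx : v x ≤ c) (hy : v y ≤ c) : v (x - y) ≤ c :=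
  (Valuation.map_sub _ _ _).trans (max_le hx hy)

lemma vmul {x y : K} {c d : Γ} (hx : v x ≤ c) (hy : v y ≤ d) : v (x * y) ≤ c * d := by
  rw [map_mul]; exact mul_le_mul' hx hy

lemma vpow {x : K} {c : Γ} (hx : v x ≤ c) (n : ℕ) : v (x ^ n) ≤ c ^ n := by
  rw [map_pow]; exact pow_le_pow_left' hx n

/-- the content of the three biforms, affine case, both integral -/
lemma content_int (hg : GoodV κ v) {x y : K} (hx : v x ≤ 1) (hy : v y ≤ 1) :
    max (v (κ.F2 x y)) (max (v (κ.F1 x y)) (v ((x - y) ^ 2))) = 1 := by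
  have one_mul' : ∀ {a b : K}, v a ≤ 1 → v b ≤ 1 → v (a * b) ≤ 1 := fun ha hb => by
    simpa using vmul ha hb
  have one_pow' : ∀ {a : K} (n : ℕ), v a ≤ 1 → v (a ^ n) ≤ 1 := fun n ha => by
    simpa using vpow ha n
  have hxy := one_mul' hx hy
  have hs : v (x + y) ≤ 1 := vadd hx hy
  apply le_antisymm
  · refine max_le ?_ (max_le ?_ ?_)
    · rw [KummerLine.F2]
      exact vsub (vsub (vsub (one_pow' 2 hxy) (one_mul' hg.b₄ hxy)) (one_mul' hg.b₆ hs)) hg.b₈
    · rw [KummerLine.F1]
      exact vadd (vadd (vadd (one_mul' (one_mul' (v_ofNat v 2) hs) hxy) (one_mul' hg.b₂ hxy))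
        (one_mul' hg.b₄ hs)) hg.b₆
    · exact one_pow' 2 (vsub hx hy)
  · by_contra hcon
    rw [not_le] at hcon
    obtain ⟨h2, h10⟩ := max_lt_iff.1 hcon
    obtain ⟨h1, h0⟩ := max_lt_iff.1 h10
    have hd := hg.disc
    rw [κ.disc_eq' x y] at hd
    have m2 : v (-12 * (x + y) ^ 2 - 4 * κ.b₂ * (x + y) + (κ.b₂ ^ 2 - 32 * κ.b₄)) ≤ 1 := by
      refine vadd (vsub (one_mul' ?_ (one_pow' 2 hs)) (one_mul' (one_mul' (v_ofNat v 4) hg.b₂) hs))
        (vsub (one_pow' 2 hg.b₂) (one_mul' (v_ofNat v 32) hg.b₄))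
      rw [Valuation.map_neg]; exact v_ofNat v 12
    have m1 : v (6 * (x * y) * (x + y) - κ.b₂ * (x * y) - 5 * κ.b₄ * (x + y) +
        (κ.b₂ * κ.b₄ - 27 * κ.b₆)) ≤ 1 :=
      vadd (vsub (vsub (one_mul' (one_mul' (v_ofNat v 6) hxy) hs) (one_mul' hg.b₂ hxy))
        (one_mul' (one_mul' (v_ofNat v 5) hg.b₄) hs))
        (vsub (one_mul' hg.b₂ hg.b₄) (one_mul' (v_ofNat v 27) hg.b₆))
    have m0 : v (-8 * κ.b₄ * (x * y) - 12 * κ.b₆ * (x + y) + (κ.b₄ ^ 2 - 28 * κ.b₈)) ≤ 1 := by
      refine vadd (vsub (one_mul' (one_mul' ?_ hg.b₄) hxy) (one_mul' (one_mul' (v_ofNat v 12) hg.b₆) hs))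
        (vsub (one_pow' 2 hg.b₄) (one_mul' (v_ofNat v 28) hg.b₈))
      rw [Valuation.map_neg]; exact v_ofNat v 8
    refine absurd hd (ne_of_lt ?_)
    refine lt_of_le_of_lt (Valuation.map_add _ _ _) (max_lt (lt_of_le_of_lt
      (Valuation.map_add _ _ _) (max_lt ?_ ?_)) ?_)
    · rw [map_mul]; exact lt_of_le_of_lt (mul_le_of_le_one_left' m2) h2
    · rw [map_mul]; exact lt_of_le_of_lt (mul_le_of_le_one_left' m1) h1
    · rw [map_mul]; exact lt_of_le_of_lt (mul_le_of_le_one_left' m0) h0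

lemma content_mixed (hg : GoodV κ v) {x y : K} (hx : v x ≤ 1) (hy : 1 < v y) :
    max (v (κ.F2 x y)) (max (v (κ.F1 x y)) (v ((x - y) ^ 2))) = v y ^ 2 := by
  have hy1 : (1 : Γ) ≤ v y := hy.le
  have hyy : v y ≤ v y ^ 2 := by
    rw [sq]; exact le_mul_of_one_le_left' hy1
  have h1y : (1 : Γ) ≤ v y ^ 2 := hy1.trans hyy
  have hxy : v (x * y) ≤ v y := by rw [map_mul]; exact mul_le_of_le_one_left' hx
  have hs : v (x + y) ≤ v y := vadd (hx.trans hy1) le_rfl
  have hb : ∀ {b a : K}, v b ≤ 1 → v a ≤ v y → v (b * a) ≤ v y ^ 2 := fun hb ha => by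
    rw [map_mul]
    exact (mul_le_of_le_one_left' hb).trans (ha.trans hyy)
  apply le_antisymm
  · refine max_le ?_ (max_le ?_ ?_)
    · rw [KummerLine.F2]
      exact vsub (vsub (vsub (vpow hxy 2) (hb hg.b₄ hxy)) (hb hg.b₆ hs)) (hg.b₈.trans h1y)
    · rw [KummerLine.F1]
      refine vadd (vadd (vadd ?_ (hb hg.b₂ hxy)) (hb hg.b₄ hs)) (hg.b₆.trans h1y)
      rw [sq]
      refine vmul ?_ hxy
      rw [map_mul]
      exact (mul_le_of_le_one_left' (v_ofNat v 2)).trans hs
    · exact vpow (vsub (hx.trans hy1) le_rfl) 2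
  · refine le_max_of_le_right (le_max_of_le_right ?_)
    rw [map_pow, Valuation.map_sub_eq_of_lt_right _ (hx.trans_lt hy)]

lemma content_pole (hg : GoodV κ v) {x y : K} (hx : 1 < v x) (hy : 1 < v y) :
    max (v (κ.F2 x y)) (max (v (κ.F1 x y)) (v ((x - y) ^ 2))) = (v x * v y) ^ 2 := by
  have hx1 : (1 : Γ) ≤ v x := hx.le
  have hy1 : (1 : Γ) ≤ v y := hy.le
  have hxy1 : 1 < v x * v y := one_lt_mul'' hx hy
  have hxx : v x ≤ v x * v y := le_mul_of_one_le_right' hy1
  have hyy : v y ≤ v x * v y := le_mul_of_one_le_left' hx1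
  have hs : v (x + y) ≤ v x * v y := vadd hxx hyy
  have hd : v (x - y) ≤ v x * v y := vsub hxx hyy
  have hsq : v x * v y < (v x * v y) ^ 2 := by
    simpa using pow_lt_pow_right₀ hxy1 (show 1 < 2 by norm_num)
  have e : κ.F2 x y = (x * y) ^ 2 + (-(κ.b₄ * (x * y)) - κ.b₆ * (x + y) - κ.b₈) := by
    rw [KummerLine.F2]; ring
  have hlt : v (-(κ.b₄ * (x * y)) - κ.b₆ * (x + y) - κ.b₈) < v ((x * y) ^ 2) := by
    rw [map_pow, map_mul]
    refine lt_of_le_of_lt ?_ hsq
    refine vsub (vsub ?_ ?_) (hg.b₈.trans hxy1.le)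
    · rw [Valuation.map_neg, map_mul, map_mul]
      exact mul_le_of_le_one_left' hg.b₄
    · rw [map_mul]
      exact (mul_le_of_le_one_left' hg.b₆).trans hs
  have hF2 : v (κ.F2 x y) = (v x * v y) ^ 2 := by
    rw [e, Valuation.map_add_eq_of_lt_left _ hlt, map_pow, map_mul]
  apply le_antisymm
  · refine max_le hF2.le (max_le ?_ (vpow hd 2))
    rw [KummerLine.F1]
    refine vadd (vadd (vadd ?_ ?_) ?_) (hg.b₆.trans (hxy1.le.trans hsq.le))
    · rw [sq]
      refine vmul ?_ (by rw [map_mul])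
      rw [map_mul]
      exact (mul_le_of_le_one_left' (v_ofNat v 2)).trans hs
    · rw [map_mul, map_mul]
      exact (mul_le_of_le_one_left' hg.b₂).trans hsq.le
    · rw [map_mul]
      exact (mul_le_of_le_one_left' hg.b₄).trans (hs.trans hsq.le)
  · exact hF2.symm.le.trans (le_max_left _ _)

/-- height factor -/
def M (v : Valuation K Γ) (κ : KummerLine G K) (P : G) : Γ := max (v (κ.N P)) (v (κ.D P))

lemma F1_comm (x y : K) : κ.F1 x y = κ.F1 y x := by rw [KummerLine.F1, KummerLine.F1]; ring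
lemma F2_comm (x y : K) : κ.F2 x y = κ.F2 y x := by rw [KummerLine.F2, KummerLine.F2]; ring

lemma content_aff (hg : GoodV κ v) (x y : K) :
    max (v (κ.F2 x y)) (max (v (κ.F1 x y)) (v ((x - y) ^ 2))) =
      (max (v x) 1 * max (v y) 1) ^ 2 := by
  rcases le_or_gt (v x) 1 with hx | hx
  · rcases le_or_gt (v y) 1 with hy | hy
    · rw [content_int hg hx hy, max_eq_right hx, max_eq_right hy]; simp
    · rw [content_mixed hg hx hy, max_eq_right hx, max_eq_left hy.le, one_mul]
  · rcases le_or_gt (v y) 1 with hy | hy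
    · have : v ((x - y) ^ 2) = v ((y - x) ^ 2) := by congr 1; ring
      rw [F1_comm, F2_comm, this, content_mixed hg hy hx, max_eq_right hy, max_eq_left hx.le,
        mul_one]
    · rw [content_pole hg hx hy, max_eq_left hx.le, max_eq_left hy.le]

/-- the content of the three biforms -/
lemma content (hg : GoodV κ v) (P Q : G) :
    max (v ((κ.N P * κ.N Q) ^ 2 - κ.b₄ * (κ.N P * κ.N Q) * (κ.D P * κ.D Q) -
      κ.b₆ * (κ.N P * κ.D Q + κ.D P * κ.N Q) * (κ.D P * κ.D Q) - κ.b₈ * (κ.D P * κ.D Q) ^ 2))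
      (max (v (2 * (κ.N P * κ.D Q + κ.D P * κ.N Q) * (κ.N P * κ.N Q) +
        κ.b₂ * (κ.N P * κ.N Q) * (κ.D P * κ.D Q) +
      κ.b₄ * (κ.N P * κ.D Q + κ.D P * κ.N Q) * (κ.D P * κ.D Q) + κ.b₆ * (κ.D P * κ.D Q) ^ 2))
      (v ((κ.N P * κ.D Q + κ.D P * κ.N Q) ^ 2 - 4 * (κ.N P * κ.N Q) * (κ.D P * κ.D Q)))) =
      (M v κ P * M v κ Q) ^ 2 := by
  have aux : ∀ n d : K, max (v (n ^ 2)) (max (v (2 * d * n)) (v (d ^ 2))) =
      (max (v n) (v d)) ^ 2 := by
    intro n d
    have := gauss v n d n d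
    have e : n * d + d * n = 2 * d * n := by ring
    rw [e, ← sq, ← sq, ← sq] at this
    exact this
  by_cases hP : P = 0
  · subst hP
    simp only [M, κ.N_zero, κ.D_zero]
    have := aux (κ.N Q) (κ.D Q)
    simp only [map_one, map_zero, one_mul, zero_mul, mul_zero, add_zero, sub_zero, ne_eq,
      OfNat.ofNat_ne_zero, not_false_eq_true, zero_pow]
    rw [this]
    simp
  · by_cases hQ : Q = 0
    · subst hQ
      simp only [M, κ.N_zero, κ.D_zero]
      have := aux (κ.N P) (κ.D P)
      simp only [map_one, map_zero, mul_one, mul_zero, add_zero, sub_zero, ne_eq,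
        OfNat.ofNat_ne_zero, not_false_eq_true, zero_pow, zero_add]
      rw [this]
      simp
    · have := content_aff hg (κ.N P) (κ.N Q)
      simp only [M, κ.D_ne _ hP, κ.D_ne _ hQ, map_one]
      rw [← this]
      have e2 : κ.F2 (κ.N P) (κ.N Q) = (κ.N P * κ.N Q) ^ 2 - κ.b₄ * (κ.N P * κ.N Q) * (1 * 1) -
        κ.b₆ * (κ.N P * 1 + 1 * κ.N Q) * (1 * 1) - κ.b₈ * (1 * 1) ^ 2 := by
        rw [KummerLine.F2]; ring
      have e1 : κ.F1 (κ.N P) (κ.N Q) = 2 * (κ.N P * 1 + 1 * κ.N Q) * (κ.N P * κ.N Q) +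
        κ.b₂ * (κ.N P * κ.N Q) * (1 * 1) +
        κ.b₄ * (κ.N P * 1 + 1 * κ.N Q) * (1 * 1) + κ.b₆ * (1 * 1) ^ 2 := by
        rw [KummerLine.F1]; ring
      have e0 : (κ.N P - κ.N Q) ^ 2 =
        (κ.N P * 1 + 1 * κ.N Q) ^ 2 - 4 * (κ.N P * κ.N Q) * (1 * 1) := by ring
      rw [e2, e1, e0]

lemma local_law (κ : KummerLine G K) (P Q : G) : ∃ l : K, l ≠ 0 ∧
    ∀ {Γ : Type} [LinearOrderedCommGroupWithZero Γ] (v : Valuation K Γ), GoodV κ v →
      v l * (M v κ (P + Q) * M v κ (P - Q)) = (M v κ P * M v κ Q) ^ 2 := by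
  obtain ⟨l, hl, e2, e1, e0⟩ := κ.addSub P Q
  refine ⟨l, hl, fun {Γ} _ v hg => ?_⟩
  rw [← content hg P Q, ← e2, ← e1, ← e0, map_mul v l, map_mul v l, map_mul v l, M, M, ← gauss v]
  have key : ∀ (a b c d : Γ), a * max b (max c d) = max (a * b) (max (a * c) (a * d)) := by
    intro a b c d
    rw [mul_max, mul_max]
  rw [key]

end Gauss

section Global

variable {k F : Type*} [Field k] [Field F] [Algebra k F]
variable {G : Type*} [AddCommGroup G] (κ : KummerLine G F)

variable (k) in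
/-- a Kummer line with constant coefficients -/
structure ConstK : Prop where
  b₂ : ∃ c : k, κ.b₂ = algebraMap k F c
  b₄ : ∃ c : k, κ.b₄ = algebraMap k F c
  b₆ : ∃ c : k, κ.b₆ = algebraMap k F c
  b₈ : ∃ c : k, κ.b₈ = algebraMap k F c
  disc : κ.disc ≠ 0

variable {κ}

lemma ConstK.exists_disc (h : ConstK k κ) : ∃ c : k, c ≠ 0 ∧ κ.disc = algebraMap k F c := by
  obtain ⟨c2, h2⟩ := h.b₂
  obtain ⟨c4, h4⟩ := h.b₄
  obtain ⟨c6, h6⟩ := h.b₆
  obtain ⟨c8, h8⟩ := h.b₈
  have hd := h.disc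
  have e : κ.disc = algebraMap k F (-c2 ^ 2 * c8 - 8 * c4 ^ 3 - 27 * c6 ^ 2 + 9 * c2 * c4 * c6) := by
    rw [KummerLine.disc, h2, h4, h6, h8]
    simp only [map_add, map_sub, map_mul, map_neg, map_pow, map_ofNat]
  refine ⟨_, ?_, e⟩
  intro h0
  rw [e, h0, map_zero] at hd
  exact hd rfl

lemma ConstK.goodV (h : ConstK k κ) (w : Place k F) : GoodV κ w.adicValuation where
  b₂ := by obtain ⟨c, h⟩ := h.b₂; rw [h]; exact w.adicValuation_algebraMap_le_one c
  b₄ := by obtain ⟨c, h⟩ := h.b₄; rw [h]; exact w.adicValuation_algebraMap_le_one c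
  b₆ := by obtain ⟨c, h⟩ := h.b₆; rw [h]; exact w.adicValuation_algebraMap_le_one c
  b₈ := by obtain ⟨c, h⟩ := h.b₈; rw [h]; exact w.adicValuation_algebraMap_le_one c
  disc := by
    obtain ⟨c, hc, e⟩ := h.exists_disc
    rw [e, val_algebraMap w hc]

variable [IsAlgClosed k] [IsFunctionField k F]

variable (k) in
/-- The degree (height) of a point. -/
def ht (κ : KummerLine G F) (P : G) : ℤ := Divisor.degree (poleDivisor (k := k) (κ.N P))

lemma M_eq (κ : KummerLine G F) (w : Place k F) (P : G) :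
    M w.adicValuation κ P = exp (poleDivisor (k := k) (κ.N P) w) := by
  rw [poleDivisor_apply, M]
  by_cases hP : P = 0
  · subst hP
    rw [κ.N_zero, κ.D_zero]
    simp
  · rw [κ.D_ne _ hP, map_one]
    rcases eq_or_ne (κ.N P) 0 with h0 | h0
    · rw [h0]; simp
    · rw [w.adicValuation_eq_exp_neg_ord h0, ← exp_zero, max_comm]
      rcases le_total 0 (-w.ord (κ.N P)) with h | h
      · rw [max_eq_right h, max_eq_right (exp_le_exp.2 h)]
      · rw [max_eq_left h, max_eq_left (exp_le_exp.2 h)]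

theorem ht_law (h : ConstK k κ) (P Q : G) :
    ht k κ (P + Q) + ht k κ (P - Q) = 2 * ht k κ P + 2 * ht k κ Q := by
  obtain ⟨l, hl, hlaw⟩ := local_law κ P Q
  have key : poleDivisor (k := k) (κ.N (P + Q)) + poleDivisor (κ.N (P - Q)) =
      2 • poleDivisor (κ.N P) + 2 • poleDivisor (κ.N Q) + divisorOf l := by
    ext w
    have := hlaw w.adicValuation (h.goodV w)
    rw [M_eq, M_eq, M_eq, M_eq, w.adicValuation_eq_exp_neg_ord hl, ← exp_add, ← exp_add, ← exp_add,
      ← exp_nsmul, exp_inj] at this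
    simp only [Finsupp.add_apply, Finsupp.smul_apply, divisorOf_apply, smul_eq_mul, nsmul_eq_mul] at this ⊢
    push_cast at this ⊢
    linarith
  have := congrArg (Divisor.degree (K := k) (F := F)) key
  simp only [map_add, map_nsmul, degree_divisorOf, nsmul_eq_mul] at this
  rw [ht, ht, ht, ht, this]
  push_cast
  ring

lemma ht_nonneg (P : G) : 0 ≤ ht k κ P := pos_of_nonneg_degree _ (poleDivisor_nonneg _)

lemma ht_zero : ht k κ 0 = 0 := by
  rw [ht, κ.N_zero]
  have : poleDivisor (k := k) (1 : F) = 0 := by ext w; simp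
  rw [this, map_zero]

lemma ht_neg (P : G) : ht k κ (-P) = ht k κ P := by rw [ht, κ.N_neg]; rfl

lemma ht_eq_zero {P : G} (h : ht k κ P = 0) : ∃ c : k, κ.N P = algebraMap k F c := by
  rcases transcendental_or (k := k) (κ.N P) with ht' | h'
  · exfalso
    rw [ht, degree_poleDivisor ht'] at h
    haveI := finiteDimensional_adjoin_simple ht'
    have := Module.finrank_pos (R := IntermediateField.adjoin k {κ.N P}) (M := F)
    omega
  · exact h'

end Global

section Quad

/-- An integer valued function satisfying the parallelogram law. -/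
structure IsQuad {G : Type*} [AddCommGroup G] (h : G → ℤ) : Prop where
  law : ∀ P Q, h (P + Q) + h (P - Q) = 2 * h P + 2 * h Q

namespace IsQuad

variable {G : Type*} [AddCommGroup G] {h : G → ℤ} (H : IsQuad h)

include H

lemma zero : h 0 = 0 := by
  have := H.law 0 0
  simp only [add_zero, sub_zero] at this
  linarith

lemma neg (P : G) : h (-P) = h P := by
  have := H.law 0 P
  rw [zero_add, zero_sub, H.zero] at this
  linarith

omit H in
/-- the bilinear pairing -/
def B (h : G → ℤ) (P Q : G) : ℤ := h (P + Q) - h P - h Q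

omit H in
lemma B_comm (P Q : G) : B h P Q = B h Q P := by rw [B, B, add_comm]; ring

lemma B_eq (P Q : G) : 2 * B h P Q = h (P + Q) - h (P - Q) := by
  have := H.law P Q
  rw [B]; linarith

lemma B_add_left (P P' Q : G) : B h (P + P') Q = B h P Q + B h P' Q := by
  have e1 := H.law (P + Q) P'
  have e2 := H.law (P - Q) P'
  have e3 := H.law (P' + Q) P
  have e4 := H.law (P' - Q) P
  have b1 := H.B_eq (P + P') Q
  have b2 := H.B_eq P Q
  have b3 := H.B_eq P' Q
  have r1 : P + Q + P' = P + P' + Q := by abel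
  have r2 : P - Q + P' = P + P' - Q := by abel
  have r3 : P' + Q + P = P + P' + Q := by abel
  have r4 : P' - Q + P = P + P' - Q := by abel
  have r5 : P' + Q - P = -(P - Q - P') := by abel
  have r6 : P' - Q - P = -(P + Q - P') := by abel
  rw [r1] at e1
  rw [r2] at e2
  rw [r3, r5, H.neg] at e3
  rw [r4, r6, H.neg] at e4
  linarith

/-- the pairing as a homomorphism -/
def Bhom (Q : G) : G →+ ℤ where
  toFun P := B h P Q
  map_zero' := by
    have := H.B_add_left 0 0 Q
    simp only [add_zero] at this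
    change B h 0 Q = 0
    linarith
  map_add' P P' := H.B_add_left P P' Q

lemma B_zsmul_left (n : ℤ) (P Q : G) : B h (n • P) Q = n * B h P Q := by
  have := map_zsmul (H.Bhom Q) n P
  simpa [Bhom] using this

lemma B_zsmul_right (n : ℤ) (P Q : G) : B h P (n • Q) = n * B h P Q := by
  rw [B_comm, H.B_zsmul_left, B_comm]

lemma B_self (P : G) : B h P P = 2 * h P := by
  have := H.law P P
  rw [sub_self, H.zero] at this
  rw [B]; linarith

lemma zsmul (n : ℤ) (P : G) : h (n • P) = n ^ 2 * h P := by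
  have h1 := H.B_self (n • P)
  rw [H.B_zsmul_left, H.B_zsmul_right, H.B_self] at h1
  linarith [h1, sq n]

omit H in
lemma add (P Q : G) : h (P + Q) = h P + h Q + B h P Q := by rw [B]; ring

end IsQuad

end Quad

end Fermat.Agent.ECFrob
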