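import Fermat.Agent.ECFrob.PMap
import Fermat.Agent.ECFrob.Height
import Fermat.Agent.Curves.Affine

/-!
# The function field of a Weierstrass curve and its generic point
-/

set_option autoImplicit false
set_option linter.unusedSectionVars false
set_option linter.style.haveILetI false

noncomputable section

namespace Fermat.Agent.ECFrob

open WeierstrassCurve WeierstrassCurve.Affine WeierstrassCurve.Affine.Point
open Fermat.Agent.ECRed Fermat.Agent.Curves AlgebraicCurve Polynomial
open scoped Polynomial.Bivariate

variable {k : Type*} [Field k] (E : WeierstrassCurve k)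

/-- the function field -/
abbrev FF := E.toAffine.FunctionField

/-- the generic x-coordinate -/
def genX : FF E := algebraMap E.toAffine.CoordinateRing (FF E) (CoordinateRing.mk E.toAffine (C X))

/-- the generic y-coordinate -/
def genY : FF E := algebraMap E.toAffine.CoordinateRing (FF E) (CoordinateRing.mk E.toAffine Y)

/-- curve over the function field -/
abbrev EF : WeierstrassCurve (FF E) := E.map (algebraMap k (FF E))

lemma polynomial_eq : E.toAffine.polynomial = (Y : k[X][Y]) ^ 2 +
    C (C E.a₁ * X + C E.a₃) * Y - C (X ^ 3 + C E.a₂ * X ^ 2 + C E.a₄ * X + C E.a₆) := rfl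

lemma algebraMap_poly (p : k[X]) :
    algebraMap E.toAffine.CoordinateRing (FF E) (CoordinateRing.mk E.toAffine (C p)) =
      aeval (genX E) p := by
  have h : ((algebraMap E.toAffine.CoordinateRing (FF E)).comp
      ((CoordinateRing.mk E.toAffine).comp C)) = (aeval (R := k) (genX E)).toRingHom := by
    apply Polynomial.ringHom_ext
    · intro a
      change algebraMap E.toAffine.CoordinateRing (FF E) (CoordinateRing.mk E.toAffine (C (C a))) =
        aeval (genX E) (C a)
      rw [aeval_C]
      rfl
    · change _ = aeval (genX E) X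
      rw [aeval_X]
      rfl
  exact congrArg (fun f : k[X] →+* FF E => f p) h

lemma transcendental_genX : Transcendental k (genX E) := by
  rw [transcendental_iff_injective]
  have h1 : Function.Injective (algebraMap k[X] E.toAffine.CoordinateRing) :=
    FaithfulSMul.algebraMap_injective _ _
  have h2 : Function.Injective (algebraMap E.toAffine.CoordinateRing (FF E)) :=
    IsFractionRing.injective _ _
  intro p q h
  apply h1
  apply h2
  have hp := algebraMap_poly E p
  have hq := algebraMap_poly E q
  change algebraMap E.toAffine.CoordinateRing (FF E) (CoordinateRing.mk E.toAffine (C p)) =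
    algebraMap E.toAffine.CoordinateRing (FF E) (CoordinateRing.mk E.toAffine (C q))
  rw [hp, hq]
  exact h

lemma gen_equation : (EF E).toAffine.Equation (genX E) (genY E) := by
  rw [equation_iff]
  have h : CoordinateRing.mk E.toAffine ((Y : k[X][Y]) ^ 2 +
    C (C E.a₁ * X + C E.a₃) * Y - C (X ^ 3 + C E.a₂ * X ^ 2 + C E.a₄ * X + C E.a₆)) = 0 :=
    AdjoinRoot.mk_self
  have h2 := congrArg (algebraMap E.toAffine.CoordinateRing (FF E)) h
  simp only [map_add, map_sub, map_mul, map_pow, _root_.map_zero] at h2
  have e : ∀ a : k, algebraMap E.toAffine.CoordinateRing (FF E)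
      (CoordinateRing.mk E.toAffine (C (C a))) = algebraMap k (FF E) a := fun a => rfl
  have hX : algebraMap E.toAffine.CoordinateRing (FF E)
      (CoordinateRing.mk E.toAffine (C X)) = genX E := rfl
  have hY : algebraMap E.toAffine.CoordinateRing (FF E)
      (CoordinateRing.mk E.toAffine Y) = genY E := rfl
  simp only [e, hX, hY] at h2
  simp only [map_a₁, map_a₂, map_a₃, map_a₄, map_a₆]
  linear_combination h2

lemma EF_Δ (hΔ : E.Δ ≠ 0) : (EF E).Δ ≠ 0 := by
  rw [map_Δ]
  exact (_root_.map_ne_zero _).2 hΔ

/-- The generic point. -/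
def gen (hΔ : E.Δ ≠ 0) : (EF E).toAffine.Point :=
  .some (genX E) (genY E) ((equation_iff_nonsingular_of_Δ_ne_zero (EF_Δ E hΔ)).1 (gen_equation E))

/-- the universal property of the function field -/
theorem exists_hom {L : Type*} [Field L] [Algebra k L] {x y : L}
    (h : (E.map (algebraMap k L)).toAffine.Equation x y) (hx : Transcendental k x) :
    ∃ f : FF E →ₐ[k] L, f (genX E) = x ∧ f (genY E) = y := by
  have hroot : eval₂ (aeval (R := k) x).toRingHom y E.toAffine.polynomial = 0 := by
    rw [equation_iff] at h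
    simp only [map_a₁, map_a₂, map_a₃, map_a₄, map_a₆] at h
    rw [polynomial_eq]
    simp only [eval₂_add, eval₂_sub, eval₂_mul, eval₂_pow, eval₂_C, eval₂_X]
    change y ^ 2 + aeval x (C E.a₁ * X + C E.a₃) * y -
      aeval x (X ^ 3 + C E.a₂ * X ^ 2 + C E.a₄ * X + C E.a₆) = 0
    simp only [map_add, map_mul, map_pow, aeval_C, aeval_X]
    linear_combination h
  let g : E.toAffine.CoordinateRing →+* L := AdjoinRoot.lift (aeval (R := k) x).toRingHom y hroot
  have gX : ∀ p : k[X], g (CoordinateRing.mk E.toAffine (C p)) = aeval x p := by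
    intro p
    have : g (AdjoinRoot.of E.toAffine.polynomial p) = (aeval (R := k) x).toRingHom p :=
      AdjoinRoot.lift_of hroot
    exact this
  have gY : g (CoordinateRing.mk E.toAffine Y) = y := AdjoinRoot.lift_root hroot
  have hint : Algebra.IsIntegral k[X] E.toAffine.CoordinateRing := by
    have : Module.Finite k[X] E.toAffine.CoordinateRing :=
      Module.Finite.of_basis (CoordinateRing.basis E.toAffine)
    exact Algebra.IsIntegral.of_finite _ _
  have hker : RingHom.ker g = ⊥ := by
    apply Ideal.eq_bot_of_comap_eq_bot (R := k[X])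
    rw [eq_bot_iff]
    intro p hp
    rw [Ideal.mem_comap, RingHom.mem_ker] at hp
    have h1 : aeval x p = 0 := by rw [← gX p]; exact hp
    rw [Ideal.mem_bot]
    by_contra hp0
    exact hx ⟨p, hp0, h1⟩
  have hinj : Function.Injective g := (RingHom.injective_iff_ker_eq_bot g).2 hker
  let f : FF E →+* L := IsFractionRing.lift hinj
  have hf : ∀ z : E.toAffine.CoordinateRing, f (algebraMap _ _ z) = g z :=
    fun z => IsFractionRing.lift_algebraMap hinj z
  refine ⟨⟨f, ?_⟩, ?_, ?_⟩
  · intro c
    change f (algebraMap E.toAffine.CoordinateRing (FF E)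
      (CoordinateRing.mk E.toAffine (C (C c)))) = _
    rw [hf, gX, aeval_C]
  · change f (algebraMap E.toAffine.CoordinateRing (FF E) (CoordinateRing.mk E.toAffine (C X))) = x
    rw [hf, gX, aeval_X]
  · change f (algebraMap E.toAffine.CoordinateRing (FF E) (CoordinateRing.mk E.toAffine Y)) = y
    rw [hf, gY]

open IntermediateField in
lemma aeval_mem (p : k[X]) : aeval (genX E) p ∈ k⟮genX E⟯ := by
  have := aeval_mem_adjoin_singleton k (p := p) (genX E)
  exact IntermediateField.algebra_adjoin_le_adjoin k {genX E} this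

open IntermediateField in
lemma adjoin_genY : IntermediateField.adjoin k⟮genX E⟯ {genY E} = ⊤ := by
  rw [eq_top_iff]
  intro f _
  have hp : ∀ p : k[X], aeval (genX E) p ∈ IntermediateField.adjoin k⟮genX E⟯ {genY E} := fun p =>
    (IntermediateField.adjoin k⟮genX E⟯ {genY E}).algebraMap_mem (⟨_, aeval_mem E p⟩ : k⟮genX E⟯)
  have hz : ∀ z : E.toAffine.CoordinateRing, algebraMap E.toAffine.CoordinateRing (FF E) z ∈
      IntermediateField.adjoin k⟮genX E⟯ {genY E} := by
    intro z
    obtain ⟨p, q, rfl⟩ := CoordinateRing.exists_smul_basis_eq z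
    rw [CoordinateRing.smul, CoordinateRing.smul, mul_one, map_add, map_mul, algebraMap_poly,
      algebraMap_poly]
    exact add_mem (hp p) (mul_mem (hp q) (IntermediateField.mem_adjoin_simple_self _ _))
  obtain ⟨a, b, hb, rfl⟩ := IsFractionRing.div_surjective (A := E.toAffine.CoordinateRing) f
  exact div_mem (hz a) (hz b)

open IntermediateField in
lemma exists_quad : ∃ p : Polynomial k⟮genX E⟯, p.Monic ∧ p.natDegree = 2 ∧
    aeval (genY E) p = 0 := by
  have hX : genX E ∈ k⟮genX E⟯ := IntermediateField.mem_adjoin_simple_self _ _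
  set x : k⟮genX E⟯ := ⟨genX E, hX⟩ with hx
  let c : k → k⟮genX E⟯ := algebraMap k _
  refine ⟨X ^ 2 + (C (c E.a₁ * x + c E.a₃) * X +
    C (-(x ^ 3 + c E.a₂ * x ^ 2 + c E.a₄ * x + c E.a₆))), ?_, ?_, ?_⟩
  · apply monic_X_pow_add
    refine lt_of_le_of_lt (degree_linear_le) ?_
    norm_num
  · rw [natDegree_add_eq_left_of_natDegree_lt]
    · simp
    · rw [natDegree_X_pow]
      exact lt_of_le_of_lt natDegree_linear_le (by norm_num)
  · have h := gen_equation E
    rw [equation_iff] at h
    simp only [map_a₁, map_a₂, map_a₃, map_a₄, map_a₆] at h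
    have e : ∀ a : k, algebraMap k⟮genX E⟯ (FF E) (c a) = algebraMap k (FF E) a := fun a => rfl
    have ex : algebraMap k⟮genX E⟯ (FF E) x = genX E := rfl
    simp only [map_add, map_mul, map_pow, map_neg, aeval_X, aeval_C, e, ex]
    linear_combination h

open IntermediateField in
instance finiteDimensional_FF : FiniteDimensional k⟮genX E⟯ (FF E) := by
  obtain ⟨p, hp, -, h0⟩ := exists_quad E
  have hint : IsIntegral k⟮genX E⟯ (genY E) := ⟨p, hp, h0⟩
  have := IntermediateField.adjoin.finiteDimensional hint
  rw [adjoin_genY] at this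
  exact (IntermediateField.topEquiv (F := k⟮genX E⟯) (E := FF E)).toLinearEquiv.finiteDimensional

instance isFunctionField_FF : IsFunctionField k (FF E) :=
  ⟨genX E, transcendental_genX E, finiteDimensional_FF E⟩

open IntermediateField in
lemma finrank_le_two : Module.finrank k⟮genX E⟯ (FF E) ≤ 2 := by
  obtain ⟨p, hp, hd, h0⟩ := exists_quad E
  have hint : IsIntegral k⟮genX E⟯ (genY E) := ⟨p, hp, h0⟩
  rw [← IntermediateField.finrank_top', ← adjoin_genY, IntermediateField.adjoin.finrank hint]
  rw [← hd]
  exact natDegree_le_natDegree (minpoly.min _ _ hp h0)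

section Parity

variable {F : Type*} [Field F] [Algebra k F] [DecidableEq F]
variable {E}

/-- the Kummer line over `F` has constant coefficients -/
lemma constK (hΔ : E.Δ ≠ 0) :
    ConstK k (KummerLine.ofCurve (E.map (algebraMap k F)).toAffine) where
  b₂ := ⟨E.b₂, map_b₂ E (algebraMap k F)⟩
  b₄ := ⟨E.b₄, map_b₄ E (algebraMap k F)⟩
  b₆ := ⟨E.b₆, map_b₆ E (algebraMap k F)⟩
  b₈ := ⟨E.b₈, map_b₈ E (algebraMap k F)⟩
  disc := by
    have e : (KummerLine.ofCurve (E.map (algebraMap k F)).toAffine).disc =
      (E.map (algebraMap k F)).Δ := rfl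
    rw [e, map_Δ]
    exact (_root_.map_ne_zero _).2 hΔ

/-- poles of the x-coordinate have even order -/
lemma even_pole (w : Place k F) {x y : F}
    (h : (E.map (algebraMap k F)).toAffine.Equation x y) (hx : x ∉ w.toValuationSubring) :
    w.ord x ≤ -2 := by
  have hx0 : x ≠ 0 := fun h0 => hx (h0 ▸ zero_mem _)
  have hx1 : w.ord x < 0 := by
    rw [mem_iff_ord w hx0] at hx; omega
  have hv : 1 < w.adicValuation x := by rw [mem_iff_val, not_le] at hx; exact hx
  set v := w.adicValuation with hvdef
  have hc : ∀ c : k, v (algebraMap k F c) ≤ 1 := w.adicValuation_algebraMap_le_one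
  rw [equation_iff] at h
  simp only [map_a₁, map_a₂, map_a₃, map_a₄, map_a₆] at h
  have hR : v (x ^ 3 + (algebraMap k F E.a₂) * x ^ 2 + (algebraMap k F E.a₄) * x +
      (algebraMap k F E.a₆)) = v x ^ 3 := by
    have e : x ^ 3 + (algebraMap k F E.a₂) * x ^ 2 + (algebraMap k F E.a₄) * x +
      (algebraMap k F E.a₆) = x ^ 3 + ((algebraMap k F E.a₂) * x ^ 2 + (algebraMap k F E.a₄) * x +
      (algebraMap k F E.a₆)) := by ring
    have h2 : v x ^ 2 < v x ^ 3 := pow_lt_pow_right₀ hv (by norm_num)
    have h1 : v x < v x ^ 3 := by simpa using pow_lt_pow_right₀ hv (show 1 < 3 by norm_num)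
    rw [e, Valuation.map_add_eq_of_lt_left, map_pow]
    rw [map_pow]
    refine lt_of_le_of_lt (Valuation.map_add _ _ _) (max_lt (lt_of_le_of_lt
      (Valuation.map_add _ _ _) (max_lt ?_ ?_)) ?_)
    · rw [map_mul, map_pow]; exact lt_of_le_of_lt (mul_le_of_le_one_left' (hc _)) h2
    · rw [map_mul]; exact lt_of_le_of_lt (mul_le_of_le_one_left' (hc _)) h1
    · exact lt_of_le_of_lt (hc _) (one_lt_pow₀ hv (by norm_num))
  rw [← h] at hR
  set c := (algebraMap k F E.a₁) * x + (algebraMap k F E.a₃) with hcdef
  have hcx : v c ≤ v x := by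
    refine (Valuation.map_add _ _ _).trans (max_le ?_ ((hc _).trans hv.le))
    rw [map_mul]; exact mul_le_of_le_one_left' (hc _)
  have hL : y ^ 2 + (algebraMap k F E.a₁) * x * y + (algebraMap k F E.a₃) * y = y * (y + c) := by
    rw [hcdef]; ring
  rw [hL, map_mul] at hR
  have hy : v x < v y := by
    by_contra hcon
    rw [not_lt] at hcon
    have h3 : v y * v (y + c) ≤ v x ^ 2 := by
      rw [sq]
      exact mul_le_mul' hcon ((Valuation.map_add _ _ _).trans (max_le hcon hcx))
    rw [hR] at h3
    exact absurd h3 (not_le.2 (pow_lt_pow_right₀ hv (by norm_num)))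
  rw [Valuation.map_add_eq_of_lt_left _ (hcx.trans_lt hy), ← sq] at hR
  have hy0 : y ≠ 0 := by
    rintro rfl
    rw [_root_.map_zero] at hy
    exact absurd hy (not_lt.2 zero_le)
  rw [← map_pow, ← map_pow, w.adicValuation_eq_exp_neg_ord (pow_ne_zero _ hy0),
    w.adicValuation_eq_exp_neg_ord (pow_ne_zero _ hx0), WithZero.exp_inj, ord_pow, ord_pow] at hR
  push_cast at hR
  omega

end Parity

section Places

variable [IsAlgClosed k] {F : Type*} [Field F] [Algebra k F] [IsFunctionField k F] [DecidableEq F]
variable {E}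

/-- lower bound for the height -/
lemma ht_ge (P : (E.map (algebraMap k F)).toAffine.Point) (S : Finset (Place k F))
    (hS : ∀ w ∈ S, P ≠ 0 ∧ xN P ∉ w.toValuationSubring) :
    2 * (S.card : ℤ) ≤ ht k (KummerLine.ofCurve (E.map (algebraMap k F)).toAffine) P := by
  classical
  rw [ht, degree_eq_sum, Finsupp.sum]
  have hn : (KummerLine.ofCurve (E.map (algebraMap k F)).toAffine).N P = xN P := rfl
  rw [hn]
  have h2 : ∀ w ∈ S, 2 ≤ poleDivisor (k := k) (xN P) w := by
    intro w hw
    obtain ⟨h0, hx⟩ := hS w hw
    rw [poleDivisor_apply]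
    rcases P with _ | ⟨x, y, hP⟩
    · exact absurd rfl h0
    · have := even_pole w hP.1 hx
      rw [xN_some]
      omega
  calc 2 * (S.card : ℤ) = ∑ w ∈ S, 2 := by simp; ring
    _ ≤ ∑ w ∈ S, poleDivisor (k := k) (xN P) w := Finset.sum_le_sum h2
    _ ≤ _ := by
      refine Finset.sum_le_sum_of_subset_of_nonneg ?_ ?_
      · intro w hw
        rw [Finsupp.mem_support_iff]
        have := h2 w hw
        omega
      · intro w _ _
        exact poleDivisor_nonneg _ w

/-- The residue map of a place. -/
def resMap (w : Place k F) : w.toValuationSubring →+* k where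
  toFun x := value w x
  map_one' := by
    have := value_algebraMap w (1 : k)
    rwa [map_one] at this
  map_mul' x y := value_mul w x.2 y.2
  map_zero' := by
    have := value_algebraMap w (0 : k)
    rwa [_root_.map_zero] at this
  map_add' x y := value_add w x.2 y.2

/-- reduction data of a place -/
def placeData (w : Place k F) : RedData F k where
  A := w.toValuationSubring
  π := resMap w
  loc a := by
    change value w (a : F) = 0 ↔ _
    rw [value_eq_zero_iff w a.2, IsLocalRing.mem_maximalIdeal, mem_nonunits_iff,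
      ← w.adicValuation_coe_eq_one_iff]
    exact ⟨fun h => h.ne, fun h => lt_of_le_of_ne ((mem_iff_val w).1 a.2) h⟩

/-- constants in the valuation ring -/
def cst (w : Place k F) : k →+* (placeData w).A := algebraMap k w.toValuationSubring

lemma cst_K (w : Place k F) : ((placeData w).A.subtype).comp (cst w) = algebraMap k F := rfl

lemma cst_k (w : Place k F) : ((placeData w).π).comp (cst w) = RingHom.id k := by
  ext c
  exact value_algebraMap w c

lemma redK (w : Place k F) (E : WeierstrassCurve k) :
    (placeData w).WK (E.map (cst w)) = E.map (algebraMap k F) := by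
  rw [RedData.WK, WeierstrassCurve.map_map, cst_K]

lemma redk (w : Place k F) (E : WeierstrassCurve k) :
    (placeData w).Wk (E.map (cst w)) = E := by
  rw [RedData.Wk, WeierstrassCurve.map_map, cst_k]
  exact WeierstrassCurve.map_id E

variable [DecidableEq k]

lemma redΔ (w : Place k F) (hΔ : E.Δ ≠ 0) : (placeData w).π (E.map (cst w)).Δ ≠ 0 := by
  rw [map_Δ]
  have : (placeData w).π (cst w E.Δ) = E.Δ := congrArg (fun f : k →+* k => f E.Δ) (cst_k w)
  rw [this]; exact hΔ

end Places

end Fermat.Agent.ECFrob
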