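import Fermat.Agent.ECFrob.RedHom

/-!
# Functoriality of points for ring homomorphisms
-/

set_option autoImplicit false
set_option linter.unusedSectionVars false

noncomputable section

namespace Fermat.Agent.ECFrob

open WeierstrassCurve WeierstrassCurve.Affine WeierstrassCurve.Affine.Point
open Fermat.Agent.ECRed

variable {K L M : Type*} [Field K] [Field L] [Field M] [DecidableEq K] [DecidableEq L]
  [DecidableEq M]

/-- map on points induced by a homomorphism of fields -/
def pmap₀ (f : K →+* L) (E : WeierstrassCurve K) :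
    E.toAffine.Point →+ (E.map f).toAffine.Point where
  toFun P := match P with
    | .zero => .zero
    | .some x y h => .some (f x) (f y) ((map_nonsingular E.toAffine f.injective x y).2 h)
  map_zero' := rfl
  map_add' := by
    rintro (_ | ⟨x₁, y₁, h₁⟩) (_ | ⟨x₂, y₂, h₂⟩)
    any_goals rfl
    by_cases hxy : x₁ = x₂ ∧ y₁ = E.toAffine.negY x₂ y₂
    · rw [add_of_Y_eq hxy.left hxy.right,
        add_of_Y_eq (congr_arg _ hxy.left) <| by rw [hxy.right]; simp [negY]]
      rfl
    · have hxy' : ¬(f x₁ = f x₂ ∧ f y₁ = (E.map f).toAffine.negY (f x₂) (f y₂)) := by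
        rintro ⟨e1, e2⟩
        apply hxy
        refine ⟨f.injective e1, f.injective ?_⟩
        rw [e2]; simp [negY]
      have hs : (E.map f).toAffine.slope (f x₁) (f x₂) (f y₁) (f y₂) =
          f (E.toAffine.slope x₁ x₂ y₁ y₂) := map_slope f x₁ x₂ y₁ y₂
      change _ = Point.some (f x₁) (f y₁) _ + Point.some (f x₂) (f y₂) _
      rw [add_some hxy, add_some hxy']
      change Point.some _ _ _ = _
      congr 1
      · rw [hs]
        simp [addX]
      · rw [hs]
        simp [addY, negAddY, addX, negY]

/-- map on points induced by a homomorphism of fields -/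
def pmap (f : K →+* L) {E : WeierstrassCurve K} {E' : WeierstrassCurve L} (h : E.map f = E') :
    E.toAffine.Point →+ E'.toAffine.Point := by
  subst h; exact pmap₀ f E

lemma pmap_some (f : K →+* L) {E : WeierstrassCurve K} {E' : WeierstrassCurve L}
    (h : E.map f = E') {x y : K} (hP : E.toAffine.Nonsingular x y) :
    ∃ h' : E'.toAffine.Nonsingular (f x) (f y),
      pmap f h (.some x y hP) = .some (f x) (f y) h' := by
  subst h; exact ⟨_, rfl⟩

lemma pmap_zero (f : K →+* L) {E : WeierstrassCurve K} {E' : WeierstrassCurve L}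
    (h : E.map f = E') : pmap f h 0 = 0 := map_zero _

lemma xN_pmap (f : K →+* L) {E : WeierstrassCurve K} {E' : WeierstrassCurve L}
    (h : E.map f = E') (P : E.toAffine.Point) : xN (pmap f h P) = f (xN P) := by
  rcases P with _ | ⟨x, y, hP⟩
  · change xN (pmap f h 0) = f (xN (0 : E.toAffine.Point))
    rw [pmap_zero, xN_zero, xN_zero, map_one]
  · obtain ⟨h', e⟩ := pmap_some f h hP
    rw [e]; simp

lemma pmap_injective (f : K →+* L) {E : WeierstrassCurve K} {E' : WeierstrassCurve L}
    (h : E.map f = E') : Function.Injective (pmap f h) := by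
  rintro (_ | ⟨x₁, y₁, h₁⟩) (_ | ⟨x₂, y₂, h₂⟩) he
  · rfl
  · exfalso
    obtain ⟨h', e⟩ := pmap_some f h h₂
    rw [e] at he
    have h0 : pmap f h (0 : E.toAffine.Point) = 0 := pmap_zero f h
    exact some_ne_zero h' (he.symm.trans h0)
  · exfalso
    obtain ⟨h', e⟩ := pmap_some f h h₁
    rw [e] at he
    have h0 : pmap f h (0 : E.toAffine.Point) = 0 := pmap_zero f h
    exact some_ne_zero h' (he.trans h0)
  · obtain ⟨h', e⟩ := pmap_some f h h₁
    obtain ⟨h'', e'⟩ := pmap_some f h h₂
    rw [e, e'] at he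
    obtain ⟨e1, e2⟩ := Point.some.inj he
    congr 1
    · exact f.injective e1
    · exact f.injective e2

lemma pmap_pmap (f : K →+* L) (g : L →+* M) {E : WeierstrassCurve K} {E' : WeierstrassCurve L}
    {E'' : WeierstrassCurve M} (h : E.map f = E') (h' : E'.map g = E'')
    (h'' : E.map (g.comp f) = E'') (P : E.toAffine.Point) :
    pmap g h' (pmap f h P) = pmap (g.comp f) h'' P := by
  subst h
  subst h'
  rcases P with _ | ⟨x, y, hP⟩
  · have h0 : pmap f rfl (0 : E.toAffine.Point) = 0 := pmap_zero f rfl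
    have h1 : pmap (g.comp f) h'' (0 : E.toAffine.Point) = 0 := pmap_zero _ _
    change pmap g rfl (pmap f rfl 0) = pmap (g.comp f) h'' 0
    rw [h0, h1, pmap_zero]
  · obtain ⟨h1, e1⟩ := pmap_some f rfl hP
    obtain ⟨h2, e2⟩ := pmap_some g rfl h1
    obtain ⟨h3, e3⟩ := pmap_some (g.comp f) h'' hP
    rw [e1, e2, e3]
    rfl

lemma pmap_congr {f g : K →+* L} (hfg : f = g) {E : WeierstrassCurve K} {E' : WeierstrassCurve L}
    (h : E.map f = E') (h' : E.map g = E') (P : E.toAffine.Point) : pmap f h P = pmap g h' P := by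
  subst hfg; rfl

end Fermat.Agent.ECFrob
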