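import Fermat.Agent.ECRed.Red

/-!
# The reduction homomorphism of a Weierstrass curve with good reduction over a valuation ring
-/

set_option autoImplicit false
set_option linter.unusedSectionVars false

namespace Fermat.Agent.ECFrob

open WeierstrassCurve WeierstrassCurve.Affine WeierstrassCurve.Affine.Point
open Fermat.Agent.ECRed

/-- data: a valuation subring with a local map to a field -/
structure RedData (K : Type*) [Field K] (k : Type*) [Field k] where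
  A : ValuationSubring K
  π : A →+* k
  loc : ∀ a : A, π a = 0 ↔ a ∈ IsLocalRing.maximalIdeal A

namespace RedData

variable {K : Type*} [Field K] {k : Type*} [Field k]
variable (R : RedData K k)

lemma isUnit_iff {a : R.A} : IsUnit a ↔ R.π a ≠ 0 := by
  rw [Ne, R.loc, IsLocalRing.mem_maximalIdeal, mem_nonunits_iff, not_not]

lemma inv_mem_of_not_mem {x : K} (hx : x ∉ R.A) : x⁻¹ ∈ R.A :=
  (R.A.mem_or_inv_mem x).resolve_left hx

lemma pi_inv_of_not_mem {x : K} (hx : x ∉ R.A) :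
    R.π ⟨x⁻¹, R.inv_mem_of_not_mem hx⟩ = 0 := by
  rw [R.loc, IsLocalRing.mem_maximalIdeal, mem_nonunits_iff]
  intro h
  obtain ⟨u, hu⟩ := h
  apply hx
  have h1 : ((u⁻¹ : R.Aˣ) : R.A) * u = 1 := by simp
  have h2 : (((u⁻¹ : R.Aˣ) : R.A) : K) * x⁻¹ = 1 := by
    have := congrArg (fun a : R.A => (a : K)) h1
    simpa [hu] using this
  have hx0 : x ≠ 0 := by rintro rfl; exact hx R.A.zero_mem
  have h3 : (((u⁻¹ : R.Aˣ) : R.A) : K) = x := by
    field_simp at h2; exact h2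
  rw [← h3]; exact SetLike.coe_mem _

/-- valuation estimate: `x ∈ 𝔪` as an element of `K` -/
def Small (x : K) : Prop := ∃ h : x ∈ R.A, R.π ⟨x, h⟩ = 0

def UnitK (x : K) : Prop := ∃ h : x ∈ R.A, R.π ⟨x, h⟩ ≠ 0

lemma Small.mem {x : K} (h : R.Small x) : x ∈ R.A := h.1
lemma UnitK.mem {x : K} (h : R.UnitK x) : x ∈ R.A := h.1

lemma val_le_one {x : K} : R.A.valuation x ≤ 1 ↔ x ∈ R.A := R.A.valuation_le_one_iff x

lemma val_lt_one {x : K} : R.A.valuation x < 1 ↔ R.Small x := by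
  constructor
  · intro h
    have hx : x ∈ R.A := R.val_le_one.1 h.le
    refine ⟨hx, ?_⟩
    rw [R.loc]
    have := R.A.valuation_lt_one_iff ⟨x, hx⟩
    exact this.2 h
  · rintro ⟨hx, h0⟩
    rw [R.loc] at h0
    exact (R.A.valuation_lt_one_iff ⟨x, hx⟩).1 h0

lemma val_eq_one {x : K} : R.A.valuation x = 1 ↔ R.UnitK x := by
  constructor
  · intro h
    have hx : x ∈ R.A := R.val_le_one.1 h.le
    refine ⟨hx, fun h0 => ?_⟩
    have := R.val_lt_one.2 ⟨hx, h0⟩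
    exact absurd h this.ne
  · rintro ⟨hx, h0⟩
    refine le_antisymm (R.val_le_one.2 hx) ?_
    by_contra hlt
    obtain ⟨_, h1⟩ := R.val_lt_one.1 (not_le.1 hlt)
    exact h0 h1

lemma one_lt_val {x : K} : 1 < R.A.valuation x ↔ x ∉ R.A := by
  rw [← R.val_le_one, not_le]

section Kummer

variable {G : Type*} [AddCommGroup G] (κ : KummerLine G K)

/-- the Kummer line is integral with unit discriminant -/
structure GoodK : Prop where
  b₂ : κ.b₂ ∈ R.A
  b₄ : κ.b₄ ∈ R.A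
  b₆ : κ.b₆ ∈ R.A
  b₈ : κ.b₈ ∈ R.A
  disc : R.A.valuation κ.disc = 1

variable {R κ}

local notation "v" => R.A.valuation

lemma vle {x : K} (h : x ∈ R.A) : v x ≤ 1 := R.val_le_one.2 h

lemma phi_val_of_pole (hg : R.GoodK κ) {x : K} (hx : 1 < v x) : v (κ.phi x) = v x ^ 4 := by
  have hx0 : (0 : _) < v x := lt_trans zero_lt_one hx
  have e : κ.phi x = x ^ 4 + (-(κ.b₄ * x ^ 2) - (2 * κ.b₆ * x) - κ.b₈) := by
    rw [KummerLine.phi]; ring
  have h2 : (2 : K) ∈ R.A := by exact_mod_cast (natCast_mem R.A 2)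
  have hlt : v (-(κ.b₄ * x ^ 2) - (2 * κ.b₆ * x) - κ.b₈) < v (x ^ 4) := by
    have hx4 : v (x ^ 4) = v x ^ 4 := map_pow _ _ _
    have a1 : v (-(κ.b₄ * x ^ 2)) ≤ v x ^ 2 := by
      rw [Valuation.map_neg, map_mul, map_pow]
      exact mul_le_of_le_one_left' (vle hg.b₄)
    have a2 : v (2 * κ.b₆ * x) ≤ v x := by
      rw [map_mul]
      exact mul_le_of_le_one_left' (vle (R.A.mul_mem _ _ h2 hg.b₆))
    have a3 : v κ.b₈ ≤ 1 := vle hg.b₈
    have b1 : v x ^ 2 < v x ^ 4 := pow_lt_pow_right₀ hx (by norm_num)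
    have b2 : v x < v x ^ 4 := by
      simpa using pow_lt_pow_right₀ hx (show 1 < 4 by norm_num)
    have b3 : (1 : _) < v x ^ 4 := one_lt_pow₀ hx (by norm_num)
    rw [hx4]
    refine lt_of_le_of_lt (Valuation.map_sub _ _ _) (max_lt (lt_of_le_of_lt (Valuation.map_sub _ _ _)
      (max_lt ?_ ?_)) ?_)
    · exact lt_of_le_of_lt a1 b1
    · exact lt_of_le_of_lt a2 b2
    · exact lt_of_le_of_lt a3 b3
  rw [e, Valuation.map_add_eq_of_lt_left _ hlt, map_pow]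

lemma psi_val_of_pole (hg : R.GoodK κ) {x : K} (hx : 1 < v x) : v (κ.psi x) ≤ v x ^ 3 := by
  have h2 : (2 : K) ∈ R.A := by exact_mod_cast (natCast_mem R.A 2)
  have h4 : (4 : K) ∈ R.A := by exact_mod_cast (natCast_mem R.A 4)
  have h1 : 1 ≤ v x := hx.le
  rw [KummerLine.psi]
  refine le_trans (Valuation.map_add _ _ _) (max_le (le_trans (Valuation.map_add _ _ _)
    (max_le (le_trans (Valuation.map_add _ _ _) (max_le ?_ ?_)) ?_)) ?_)
  · rw [map_mul, map_pow]; exact mul_le_of_le_one_left' (vle h4)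
  · rw [map_mul, map_pow]
    exact le_trans (mul_le_of_le_one_left' (vle hg.b₂)) (pow_le_pow_right₀ h1 (by norm_num))
  · rw [map_mul]
    refine le_trans (mul_le_of_le_one_left' (vle (R.A.mul_mem _ _ h2 hg.b₄))) ?_
    simpa using pow_le_pow_right₀ h1 (show 1 ≤ 3 by norm_num)
  · exact le_trans (vle hg.b₆) (one_le_pow₀ h1)

/-- doubling stays in the kernel of reduction -/
lemma kernel_dup (hg : R.GoodK κ) {P : G} (hP : P ≠ 0) (h2 : P + P ≠ 0)
    (hx : κ.N P ∉ R.A) : κ.N (P + P) ∉ R.A := by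
  obtain ⟨h0, h⟩ := κ.dup hP h2
  have hx' : 1 < v (κ.N P) := R.one_lt_val.2 hx
  intro hmem
  have e : v (κ.psi (κ.N P)) * v (κ.N (P + P)) = v (κ.N P) ^ 4 := by
    rw [← map_mul, h, phi_val_of_pole hg hx']
  have h3 : v (κ.psi (κ.N P)) * v (κ.N (P + P)) ≤ v (κ.N P) ^ 3 :=
    le_trans (mul_le_of_le_one_right' (vle hmem)) (psi_val_of_pole hg hx')
  rw [e] at h3
  exact absurd h3 (not_le.2 (pow_lt_pow_right₀ hx' (by norm_num)))

lemma F2_val_of_pole (hg : R.GoodK κ) {x y : K} (hx : 1 < v x) (hy : 1 < v y) :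
    v (κ.F2 x y) = (v x * v y) ^ 2 := by
  have hxy : 1 < v x * v y := one_lt_mul'' hx hy
  have e : κ.F2 x y = (x * y) ^ 2 + (-(κ.b₄ * (x * y)) - κ.b₆ * (x + y) - κ.b₈) := by
    rw [KummerLine.F2]; ring
  have hlt : v (-(κ.b₄ * (x * y)) - κ.b₆ * (x + y) - κ.b₈) < v ((x * y) ^ 2) := by
    have hx4 : v ((x * y) ^ 2) = (v x * v y) ^ 2 := by rw [map_pow, map_mul]
    have a1 : v (-(κ.b₄ * (x * y))) ≤ v x * v y := by
      rw [Valuation.map_neg, map_mul, map_mul]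
      exact mul_le_of_le_one_left' (vle hg.b₄)
    have a2 : v (κ.b₆ * (x + y)) ≤ v x * v y := by
      rw [map_mul]
      refine le_trans (mul_le_of_le_one_left' (vle hg.b₆)) ?_
      refine le_trans (Valuation.map_add _ _ _) (max_le ?_ ?_)
      · exact le_mul_of_one_le_right' hy.le
      · exact le_mul_of_one_le_left' hx.le
    have a3 : v κ.b₈ ≤ 1 := vle hg.b₈
    have b1 : v x * v y < (v x * v y) ^ 2 := by
      simpa using pow_lt_pow_right₀ hxy (show 1 < 2 by norm_num)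
    rw [hx4]
    refine lt_of_le_of_lt (Valuation.map_sub _ _ _) (max_lt (lt_of_le_of_lt (Valuation.map_sub _ _ _)
      (max_lt ?_ ?_)) ?_)
    · exact lt_of_le_of_lt a1 b1
    · exact lt_of_le_of_lt a2 b1
    · exact lt_of_le_of_lt a3 (lt_trans hxy b1)
  rw [e, Valuation.map_add_eq_of_lt_left _ hlt, map_pow, map_mul]

lemma F1_val_of_pole (hg : R.GoodK κ) {x y : K} (hx : 1 < v x) (hy : 1 < v y) :
    v (κ.F1 x y) ≤ (v x * v y) * max (v x) (v y) := by
  have hxy : 1 < v x * v y := one_lt_mul'' hx hy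
  have h2 : (2 : K) ∈ R.A := by exact_mod_cast (natCast_mem R.A 2)
  have hm : 1 ≤ max (v x) (v y) := le_max_of_le_left hx.le
  rw [KummerLine.F1]
  refine le_trans (Valuation.map_add _ _ _) (max_le (le_trans (Valuation.map_add _ _ _)
    (max_le (le_trans (Valuation.map_add _ _ _) (max_le ?_ ?_)) ?_)) ?_)
  · rw [map_mul, map_mul, map_mul, mul_comm (v x * v y)]
    refine mul_le_mul_left ?_ _
    exact le_trans (mul_le_of_le_one_left' (vle h2)) (Valuation.map_add _ _ _)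
  · rw [map_mul, map_mul]
    exact le_trans (mul_le_of_le_one_left' (vle hg.b₂)) (le_mul_of_one_le_right' hm)
  · rw [map_mul]
    refine le_trans (mul_le_of_le_one_left' (vle hg.b₄)) (le_trans (Valuation.map_add _ _ _) ?_)
    exact le_mul_of_one_le_left' hxy.le
  · refine le_trans (vle hg.b₆) ?_
    exact le_trans hxy.le (le_mul_of_one_le_right' hm)

/-- sums stay in the kernel of reduction -/
lemma kernel_add (hg : R.GoodK κ) {P Q : G} (hP : P ≠ 0) (hQ : Q ≠ 0) (h1 : P ≠ Q) (h2 : P ≠ -Q)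
    (hx : κ.N P ∉ R.A) (hy : κ.N Q ∉ R.A) : κ.N (P + Q) ∉ R.A := by
  obtain ⟨hne, es, ep⟩ := KummerLine.add_sub_ne' (κ := κ) hP hQ h1 h2
  have ha : 1 < v (κ.N P) := R.one_lt_val.2 hx
  have hb : 1 < v (κ.N Q) := R.one_lt_val.2 hy
  set x := κ.N P with hxdef
  set y := κ.N Q with hydef
  set r := κ.N (P + Q) with hr
  set s := κ.N (P - Q) with hs
  intro hmem
  have hr1 : v r ≤ 1 := vle hmem
  have hD0 : (0 : _) < v ((x - y) ^ 2) := by
    rw [Valuation.pos_iff]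
    exact pow_ne_zero _ (sub_ne_zero.2 hne)
  have hD : v ((x - y) ^ 2) ≤ (max (v x) (v y)) ^ 2 := by
    rw [map_pow]
    exact pow_le_pow_left₀ zero_le (Valuation.map_sub _ _ _) 2
  have ep' : v ((x - y) ^ 2) * (v r * v s) = (v x * v y) ^ 2 := by
    rw [← map_mul v r s, ← map_mul, ep, F2_val_of_pole hg ha hb]
  have es' : v ((x - y) ^ 2) * v (r + s) ≤ (v x * v y) * max (v x) (v y) := by
    rw [← map_mul, es]; exact F1_val_of_pole hg ha hb
  have hmin : 1 < min (v x) (v y) := lt_min ha hb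
  have hmm : v x * v y = max (v x) (v y) * min (v x) (v y) := (max_mul_min _ _).symm
  have hmaxpos : 0 < max (v x) (v y) := lt_of_lt_of_le (lt_trans zero_lt_one ha) (le_max_left _ _)
  -- |s| > 1
  have h3 : (max (v x) (v y)) ^ 2 * v s ≥ (v x * v y) ^ 2 := by
    rw [← ep']
    calc v ((x - y) ^ 2) * (v r * v s) ≤ v ((x - y) ^ 2) * v s := by
          refine mul_le_mul_right ?_ _
          exact mul_le_of_le_one_left' hr1
      _ ≤ _ := mul_le_mul_left hD _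
  have h4 : 1 < v s := by
    by_contra hcon
    have hs1 : v s ≤ 1 := not_lt.1 hcon
    have h5 : (v x * v y) ^ 2 ≤ (max (v x) (v y)) ^ 2 := le_trans h3 (mul_le_of_le_one_right' hs1)
    rw [hmm, mul_pow] at h5
    have h6 : (1 : _) < (min (v x) (v y)) ^ 2 := one_lt_pow₀ hmin (by norm_num)
    have h7 : (max (v x) (v y)) ^ 2 < (max (v x) (v y)) ^ 2 * (min (v x) (v y)) ^ 2 :=
      lt_mul_of_one_lt_right (pow_pos hmaxpos 2) h6
    exact absurd h5 (not_le.2 h7)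
  have h8 : v (r + s) = v s := Valuation.map_add_eq_of_lt_right _ (lt_of_le_of_lt hr1 h4)
  have h9 : (v x * v y) ^ 2 ≤ (v x * v y) * max (v x) (v y) := by
    refine le_trans ?_ es'
    rw [h8, ← ep']
    refine mul_le_mul_right ?_ _
    exact mul_le_of_le_one_left' hr1
  rw [sq] at h9
  have hxy0 : 0 < v x * v y := mul_pos (lt_trans zero_lt_one ha) (lt_trans zero_lt_one hb)
  have h10 : v x * v y ≤ max (v x) (v y) := le_of_mul_le_mul_left h9 hxy0
  rw [hmm] at h10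
  exact absurd h10 (not_le.2 (lt_mul_of_one_lt_right hmaxpos hmin))

lemma mem_phi (hg : R.GoodK κ) {x : K} (hx : x ∈ R.A) : κ.phi x ∈ R.A := by
  have h2 : (2 : K) ∈ R.A := by exact_mod_cast (natCast_mem R.A 2)
  rw [KummerLine.phi]
  exact sub_mem (sub_mem (sub_mem (pow_mem hx 4) (mul_mem hg.b₄ (pow_mem hx 2)))
    (mul_mem (mul_mem h2 hg.b₆) hx)) hg.b₈

lemma mem_psi (hg : R.GoodK κ) {x : K} (hx : x ∈ R.A) : κ.psi x ∈ R.A := by
  have h2 : (2 : K) ∈ R.A := by exact_mod_cast (natCast_mem R.A 2)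
  have h4 : (4 : K) ∈ R.A := by exact_mod_cast (natCast_mem R.A 4)
  rw [KummerLine.psi]
  exact add_mem (add_mem (add_mem (mul_mem h4 (pow_mem hx 3)) (mul_mem hg.b₂ (pow_mem hx 2)))
    (mul_mem (mul_mem h2 hg.b₄) hx)) hg.b₆

lemma mem_F1 (hg : R.GoodK κ) {x y : K} (hx : x ∈ R.A) (hy : y ∈ R.A) : κ.F1 x y ∈ R.A := by
  have h2 : (2 : K) ∈ R.A := by exact_mod_cast (natCast_mem R.A 2)
  rw [KummerLine.F1]
  exact add_mem (add_mem (add_mem (mul_mem (mul_mem h2 (add_mem hx hy)) (mul_mem hx hy))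
    (mul_mem hg.b₂ (mul_mem hx hy))) (mul_mem hg.b₄ (add_mem hx hy))) hg.b₆

lemma mem_F2 (hg : R.GoodK κ) {x y : K} (hx : x ∈ R.A) (hy : y ∈ R.A) : κ.F2 x y ∈ R.A := by
  rw [KummerLine.F2]
  exact sub_mem (sub_mem (sub_mem (pow_mem (mul_mem hx hy) 2) (mul_mem hg.b₄ (mul_mem hx hy)))
    (mul_mem hg.b₆ (add_mem hx hy))) hg.b₈

lemma natCast_mem' (n : ℕ) : ((n : ℕ) : K) ∈ R.A := natCast_mem R.A n

/-- if `φ` and `ψ` are integral they are not both small -/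
lemma phi_unit_of_psi_small (hg : R.GoodK κ) {x : K} (hx : x ∈ R.A) (h : v (κ.psi x) < 1) :
    v (κ.phi x) = 1 := by
  refine le_antisymm (vle (mem_phi hg hx)) ?_
  by_contra hcon
  have hphi : v (κ.phi x) < 1 := not_le.1 hcon
  have c : ∀ n : ℕ, ((n : ℕ) : K) ∈ R.A := fun n => natCast_mem R.A n
  have m1 : (-48 * x ^ 2 - 8 * κ.b₂ * x + (κ.b₂ ^ 2 - 32 * κ.b₄)) ∈ R.A := by
    have h48 : (48 : K) ∈ R.A := by exact_mod_cast c 48
    have h8 : (8 : K) ∈ R.A := by exact_mod_cast c 8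
    have h32 : (32 : K) ∈ R.A := by exact_mod_cast c 32
    exact add_mem (sub_mem (mul_mem (neg_mem h48) (pow_mem hx 2)) (mul_mem (mul_mem h8 hg.b₂) hx))
      (sub_mem (pow_mem hg.b₂ 2) (mul_mem h32 hg.b₄))
  have m2 : (12 * x ^ 3 - κ.b₂ * x ^ 2 - 10 * κ.b₄ * x + (κ.b₂ * κ.b₄ - 27 * κ.b₆)) ∈ R.A := by
    have h12 : (12 : K) ∈ R.A := by exact_mod_cast c 12
    have h10 : (10 : K) ∈ R.A := by exact_mod_cast c 10
    have h27 : (27 : K) ∈ R.A := by exact_mod_cast c 27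
    exact add_mem (sub_mem (sub_mem (mul_mem h12 (pow_mem hx 3)) (mul_mem hg.b₂ (pow_mem hx 2)))
      (mul_mem (mul_mem h10 hg.b₄) hx)) (sub_mem (mul_mem hg.b₂ hg.b₄) (mul_mem h27 hg.b₆))
  have := hg.disc
  rw [κ.disc_eq x] at this
  have hlt : v ((-48 * x ^ 2 - 8 * κ.b₂ * x + (κ.b₂ ^ 2 - 32 * κ.b₄)) * κ.phi x +
    (12 * x ^ 3 - κ.b₂ * x ^ 2 - 10 * κ.b₄ * x + (κ.b₂ * κ.b₄ - 27 * κ.b₆)) * κ.psi x) < 1 := by
    refine lt_of_le_of_lt (Valuation.map_add _ _ _) (max_lt ?_ ?_)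
    · rw [map_mul]; exact lt_of_le_of_lt (mul_le_of_le_one_left' (vle m1)) hphi
    · rw [map_mul]; exact lt_of_le_of_lt (mul_le_of_le_one_left' (vle m2)) h
  exact absurd this hlt.ne

/-- `F1`, `F2`, `(x-y)^2` are not all small -/
lemma F_not_all_small (hg : R.GoodK κ) {x y : K} (hx : x ∈ R.A) (hy : y ∈ R.A)
    (h0 : v ((x - y) ^ 2) < 1) (h1 : v (κ.F1 x y) < 1) (h2 : v (κ.F2 x y) < 1) : False := by
  have c : ∀ n : ℕ, ((n : ℕ) : K) ∈ R.A := fun n => natCast_mem R.A n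
  have h12 : (12 : K) ∈ R.A := by exact_mod_cast c 12
  have h4 : (4 : K) ∈ R.A := by exact_mod_cast c 4
  have h32 : (32 : K) ∈ R.A := by exact_mod_cast c 32
  have h6 : (6 : K) ∈ R.A := by exact_mod_cast c 6
  have h5 : (5 : K) ∈ R.A := by exact_mod_cast c 5
  have h27 : (27 : K) ∈ R.A := by exact_mod_cast c 27
  have h8 : (8 : K) ∈ R.A := by exact_mod_cast c 8
  have h28 : (28 : K) ∈ R.A := by exact_mod_cast c 28
  have hd := hg.disc
  rw [κ.disc_eq' x y] at hd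
  have m2 : (-12 * (x + y) ^ 2 - 4 * κ.b₂ * (x + y) + (κ.b₂ ^ 2 - 32 * κ.b₄)) ∈ R.A :=
    add_mem (sub_mem (mul_mem (neg_mem h12) (pow_mem (add_mem hx hy) 2))
      (mul_mem (mul_mem h4 hg.b₂) (add_mem hx hy)))
      (sub_mem (pow_mem hg.b₂ 2) (mul_mem h32 hg.b₄))
  have m1 : (6 * (x * y) * (x + y) - κ.b₂ * (x * y) - 5 * κ.b₄ * (x + y) +
      (κ.b₂ * κ.b₄ - 27 * κ.b₆)) ∈ R.A :=
    add_mem (sub_mem (sub_mem (mul_mem (mul_mem h6 (mul_mem hx hy)) (add_mem hx hy))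
      (mul_mem hg.b₂ (mul_mem hx hy))) (mul_mem (mul_mem h5 hg.b₄) (add_mem hx hy)))
      (sub_mem (mul_mem hg.b₂ hg.b₄) (mul_mem h27 hg.b₆))
  have m0 : (-8 * κ.b₄ * (x * y) - 12 * κ.b₆ * (x + y) + (κ.b₄ ^ 2 - 28 * κ.b₈)) ∈ R.A :=
    add_mem (sub_mem (mul_mem (mul_mem (neg_mem h8) hg.b₄) (mul_mem hx hy))
      (mul_mem (mul_mem h12 hg.b₆) (add_mem hx hy)))
      (sub_mem (pow_mem hg.b₄ 2) (mul_mem h28 hg.b₈))
  refine absurd hd (ne_of_lt ?_)
  refine lt_of_le_of_lt (Valuation.map_add _ _ _) (max_lt (lt_of_le_of_lt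
    (Valuation.map_add _ _ _) (max_lt ?_ ?_)) ?_)
  · rw [map_mul]; exact lt_of_le_of_lt (mul_le_of_le_one_left' (vle m2)) h2
  · rw [map_mul]; exact lt_of_le_of_lt (mul_le_of_le_one_left' (vle m1)) h1
  · rw [map_mul]; exact lt_of_le_of_lt (mul_le_of_le_one_left' (vle m0)) h0

/-- doubling a point reducing to a 2-torsion point -/
lemma cong_dup (hg : R.GoodK κ) {P : G} (hP : P ≠ 0) (h2 : P + P ≠ 0)
    (hx : κ.N P ∈ R.A) (hs : v (κ.psi (κ.N P)) < 1) : κ.N (P + P) ∉ R.A := by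
  obtain ⟨_, h⟩ := κ.dup hP h2
  intro hmem
  have e : v (κ.psi (κ.N P)) * v (κ.N (P + P)) = 1 := by
    rw [← map_mul, h, phi_unit_of_psi_small hg hx hs]
  have : v (κ.psi (κ.N P)) * v (κ.N (P + P)) < 1 :=
    lt_of_le_of_lt (mul_le_of_le_one_right' (vle hmem)) hs
  exact absurd e this.ne

/-- if x-coordinates are congruent and `x(P-Q)` is integral then `x(P+Q)` is not -/
lemma cong_add_of_sub (hg : R.GoodK κ) {P Q : G} (hP : P ≠ 0) (hQ : Q ≠ 0) (h1 : P ≠ Q)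
    (h2 : P ≠ -Q) (hx : κ.N P ∈ R.A) (hy : κ.N Q ∈ R.A) (h : v (κ.N P - κ.N Q) < 1)
    (hs : κ.N (P - Q) ∈ R.A) : κ.N (P + Q) ∉ R.A := by
  obtain ⟨hne, es, ep⟩ := KummerLine.add_sub_ne' (κ := κ) hP hQ h1 h2
  intro hr
  have h0 : v ((κ.N P - κ.N Q) ^ 2) < 1 := by
    rw [map_pow]; exact pow_lt_one' h (by norm_num)
  refine F_not_all_small hg hx hy h0 ?_ ?_
  · rw [← es, map_mul]
    exact lt_of_le_of_lt (mul_le_of_le_one_right' (vle (add_mem hr hs))) h0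
  · rw [← ep, map_mul]
    exact lt_of_le_of_lt (mul_le_of_le_one_right' (vle (mul_mem hr hs))) h0

/-- if x-coordinates are congruent and the common reduction is 2-torsion then `x(P+Q)` is not
integral -/
lemma cong_add_of_psi (hg : R.GoodK κ) {P Q : G} (hP : P ≠ 0) (hQ : Q ≠ 0) (h1 : P ≠ Q)
    (h2 : P ≠ -Q) (hx : κ.N P ∈ R.A) (hy : κ.N Q ∈ R.A) (h : v (κ.N P - κ.N Q) < 1)
    (hs : v (κ.F1 (κ.N P) (κ.N Q)) < 1) : κ.N (P + Q) ∉ R.A := by
  obtain ⟨hne, es, ep⟩ := KummerLine.add_sub_ne' (κ := κ) hP hQ h1 h2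
  intro hr
  have h0 : v ((κ.N P - κ.N Q) ^ 2) < 1 := by
    rw [map_pow]; exact pow_lt_one' h (by norm_num)
  have hF2 : v (κ.F2 (κ.N P) (κ.N Q)) = 1 := by
    refine le_antisymm (vle (mem_F2 hg hx hy)) ?_
    by_contra hcon
    exact F_not_all_small hg hx hy h0 hs (not_le.1 hcon)
  set r := κ.N (P + Q)
  set s := κ.N (P - Q)
  set D := (κ.N P - κ.N Q) ^ 2
  have e1 : v D * (v r * v s) = 1 := by rw [← map_mul v r s, ← map_mul, ep, hF2]
  have hr1 : v r ≤ 1 := vle hr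
  have hs1 : 1 < v s := by
    by_contra hcon
    have : v D * (v r * v s) < 1 :=
      lt_of_le_of_lt (mul_le_of_le_one_right' (mul_le_one' hr1 (not_lt.1 hcon))) h0
    exact absurd e1 this.ne
  have e2 : v (r + s) = v s := Valuation.map_add_eq_of_lt_right _ (lt_of_le_of_lt hr1 hs1)
  have e3 : v D * v s < 1 := by rw [← e2, ← map_mul, es]; exact hs
  have e4 : v D * (v r * v s) ≤ v D * v s := by
    refine mul_le_mul_right ?_ _
    exact mul_le_of_le_one_left' hr1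
  rw [e1] at e4
  exact absurd e3 (not_lt.2 e4)

end Kummer

end RedData

end Fermat.Agent.ECFrob
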