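import Fermat.Agent.ECFrob.Red

/-!
# The reduction homomorphism
-/

set_option autoImplicit false
set_option linter.unusedSectionVars false

namespace Fermat.Agent.ECFrob

open WeierstrassCurve WeierstrassCurve.Affine WeierstrassCurve.Affine.Point
open Fermat.Agent.ECRed

namespace RedData

variable {K : Type*} [Field K] {k : Type*} [Field k] (R : RedData K k)
variable (W : WeierstrassCurve R.A)

/-- generic fibre -/
abbrev WK : WeierstrassCurve K := W.map R.A.subtype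

/-- special fibre -/
abbrev Wk : WeierstrassCurve k := W.map R.π

variable {R W}

lemma val_coe_lt_one {a : R.A} : R.A.valuation (a : K) < 1 ↔ R.π a = 0 := by
  rw [R.val_lt_one]
  exact ⟨fun ⟨_, h⟩ => h, fun h => ⟨a.2, h⟩⟩

lemma coe_isUnit {a : R.A} (h : R.π a ≠ 0) : (a : K) ≠ 0 := by
  intro h0
  apply h
  have : a = 0 := Subtype.ext h0
  rw [this, _root_.map_zero]

lemma Y_mem {x y : K} (h : (R.WK W).toAffine.Equation x y) (hx : x ∈ R.A) : y ∈ R.A := by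
  rw [equation_iff] at h
  by_contra hy
  have hy1 : 1 < R.A.valuation y := R.one_lt_val.2 hy
  have hA : ∀ a : R.A, R.A.valuation (a : K) ≤ 1 := fun a => R.val_le_one.2 a.2
  have hl : R.A.valuation (y ^ 2 + (R.WK W).a₁ * x * y + (R.WK W).a₃ * y) = R.A.valuation y ^ 2 := by
    have e : y ^ 2 + (R.WK W).a₁ * x * y + (R.WK W).a₃ * y =
        y ^ 2 + ((R.WK W).a₁ * x + (R.WK W).a₃) * y := by ring
    have hc : (R.WK W).a₁ * x + (R.WK W).a₃ ∈ R.A :=
      add_mem (mul_mem (W.a₁).2 hx) (W.a₃).2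
    have hlt : R.A.valuation (((R.WK W).a₁ * x + (R.WK W).a₃) * y) < R.A.valuation (y ^ 2) := by
      rw [map_mul, map_pow]
      refine lt_of_le_of_lt (mul_le_of_le_one_left' (R.val_le_one.2 hc)) ?_
      simpa using pow_lt_pow_right₀ hy1 (show 1 < 2 by norm_num)
    rw [e, Valuation.map_add_eq_of_lt_left _ hlt, map_pow]
  have hr : x ^ 3 + (R.WK W).a₂ * x ^ 2 + (R.WK W).a₄ * x + (R.WK W).a₆ ∈ R.A :=
    add_mem (add_mem (add_mem (pow_mem hx 3) (mul_mem (W.a₂).2 (pow_mem hx 2)))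
      (mul_mem (W.a₄).2 hx)) (W.a₆).2
  have := R.val_le_one.2 hr
  rw [← h, hl] at this
  exact absurd this (not_le.2 (one_lt_pow₀ hy1 (by norm_num)))

lemma equation_A {a b : R.A} (h : (R.WK W).toAffine.Equation (a : K) (b : K)) :
    W.toAffine.Equation a b := by
  have hinj : Function.Injective R.A.subtype := Subtype.coe_injective
  exact (map_equation W.toAffine hinj a b).1 h

lemma nonsing_k (hΔ : R.π W.Δ ≠ 0) {a b : R.A} (h : (R.WK W).toAffine.Equation (a : K) (b : K)) :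
    (R.Wk W).toAffine.Nonsingular (R.π a) (R.π b) := by
  have h1 : (R.Wk W).toAffine.Equation (R.π a) (R.π b) := (equation_A h).map R.π
  have h2 : (R.Wk W).Δ ≠ 0 := by rw [Wk, map_Δ]; exact hΔ
  exact (equation_iff_nonsingular_of_Δ_ne_zero h2).1 h1

open Classical in
/-- the reduction map -/
noncomputable def red (hΔ : R.π W.Δ ≠ 0) :
    (R.WK W).toAffine.Point → (R.Wk W).toAffine.Point
  | .zero => .zero
  | .some x y h =>
    if hx : x ∈ R.A then
      .some (R.π ⟨x, hx⟩) (R.π ⟨y, Y_mem h.1 hx⟩)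
        (nonsing_k (a := ⟨x, hx⟩) (b := ⟨y, Y_mem h.1 hx⟩) hΔ h.1)
    else .zero

@[simp] lemma red_zero (hΔ : R.π W.Δ ≠ 0) : red hΔ (0 : (R.WK W).toAffine.Point) = 0 := rfl

lemma red_some_of_mem (hΔ : R.π W.Δ ≠ 0) {x y : K} (h : (R.WK W).toAffine.Nonsingular x y)
    (hx : x ∈ R.A) : red hΔ (.some x y h) = .some (R.π ⟨x, hx⟩) (R.π ⟨y, Y_mem h.1 hx⟩)
        (nonsing_k (a := ⟨x, hx⟩) (b := ⟨y, Y_mem h.1 hx⟩) hΔ h.1) := by
  rw [red, dif_pos hx]

lemma red_some_of_not_mem (hΔ : R.π W.Δ ≠ 0) {x y : K} (h : (R.WK W).toAffine.Nonsingular x y)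
    (hx : x ∉ R.A) : red hΔ (.some x y h) = 0 := by
  rw [red, dif_neg hx]; rfl

lemma red_coe (hΔ : R.π W.Δ ≠ 0) {a b : R.A}
    (h : (R.WK W).toAffine.Nonsingular (a : K) (b : K)) :
    red hΔ (.some (a : K) (b : K) h) = .some (R.π a) (R.π b) (nonsing_k hΔ h.1) := by
  rw [red_some_of_mem hΔ h a.2]

lemma good (hΔ : R.π W.Δ ≠ 0) [DecidableEq K] :
    R.GoodK (KummerLine.ofCurve (R.WK W).toAffine) where
  b₂ := by
    change (W.map R.A.subtype).b₂ ∈ R.A
    rw [map_b₂]; exact (W.b₂).2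
  b₄ := by
    change (W.map R.A.subtype).b₄ ∈ R.A
    rw [map_b₄]; exact (W.b₄).2
  b₆ := by
    change (W.map R.A.subtype).b₆ ∈ R.A
    rw [map_b₆]; exact (W.b₆).2
  b₈ := by
    change (W.map R.A.subtype).b₈ ∈ R.A
    rw [map_b₈]; exact (W.b₈).2
  disc := by
    have e : (KummerLine.ofCurve (R.WK W).toAffine).disc = (W.map R.A.subtype).Δ := rfl
    rw [e, map_Δ, R.val_eq_one]
    exact ⟨(W.Δ).2, hΔ⟩

variable [DecidableEq K] [DecidableEq k]

lemma red_neg (hΔ : R.π W.Δ ≠ 0) (P : (R.WK W).toAffine.Point) :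
    red hΔ (-P) = - red hΔ P := by
  rcases P with _ | ⟨x, y, h⟩
  · rfl
  · by_cases hx : x ∈ R.A
    · rw [red_some_of_mem hΔ h hx, neg_some, neg_some, red_some_of_mem hΔ _ hx]
      congr 1
      have hy := Y_mem h.1 hx
      have e : (⟨(R.WK W).toAffine.negY x y, Y_mem ((nonsingular_neg x y).2 h).1 hx⟩ : R.A) =
          W.toAffine.negY ⟨x, hx⟩ ⟨y, hy⟩ := by
        apply Subtype.ext
        simp [negY]
      rw [e]
      simp [negY]
    · rw [red_some_of_not_mem hΔ h hx, neg_some, red_some_of_not_mem hΔ _ hx, _root_.neg_zero]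

/-- the slope is integral when the reductions are not opposite -/
lemma slope_int {a₁ b₁ a₂ b₂ : R.A}
    (h₁ : (R.WK W).toAffine.Equation (a₁ : K) (b₁ : K))
    (h₂ : (R.WK W).toAffine.Equation (a₂ : K) (b₂ : K))
    (hne : ¬(R.π a₁ = R.π a₂ ∧ R.π b₁ = (R.Wk W).toAffine.negY (R.π a₂) (R.π b₂))) :
    ∃ l : R.A, (R.WK W).toAffine.slope (a₁ : K) a₂ b₁ b₂ = l ∧
      (R.Wk W).toAffine.slope (R.π a₁) (R.π a₂) (R.π b₁) (R.π b₂) = R.π l := by
  by_cases hx : R.π a₁ = R.π a₂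
  · have hy : R.π b₁ ≠ (R.Wk W).toAffine.negY (R.π a₂) (R.π b₂) := fun h => hne ⟨hx, h⟩
    have hE1 := (equation_A h₁)
    have hE2 := (equation_A h₂)
    have hyy : R.π b₁ = R.π b₂ := Y_eq_of_Y_ne (hE1.map R.π) (hE2.map R.π) hx hy
    have hu : IsUnit (b₁ - W.toAffine.negY a₂ b₂) := by
      rw [R.isUnit_iff, map_sub]
      have : R.π (W.toAffine.negY a₂ b₂) = (R.Wk W).toAffine.negY (R.π a₂) (R.π b₂) := by
        simp [negY]
      rw [this]
      exact sub_ne_zero.2 hy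
    obtain ⟨u, hu⟩ := hu
    set m : R.A := a₁ ^ 2 + a₁ * a₂ + a₂ ^ 2 + W.a₂ * (a₁ + a₂) + W.a₄ - W.a₁ * b₁ with hm
    have key : (b₁ - b₂) * (b₁ - W.toAffine.negY a₂ b₂) = (a₁ - a₂) * m := by
      rw [equation_iff] at hE1 hE2
      simp only [negY, hm]
      linear_combination hE1 - hE2
    refine ⟨m * (u⁻¹ : R.Aˣ), ?_, ?_⟩
    · have huK : ((b₁ : K) - (R.WK W).toAffine.negY a₂ b₂) * (((u⁻¹ : R.Aˣ) : R.A) : K) = 1 := by
        have h1 : (b₁ - W.toAffine.negY a₂ b₂) * ((u⁻¹ : R.Aˣ) : R.A) = 1 := by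
          rw [← hu]; simp
        have := congrArg (fun a : R.A => (a : K)) h1
        simpa [negY] using this
      have hne0 : ((b₁ : K) - (R.WK W).toAffine.negY a₂ b₂) ≠ 0 := left_ne_zero_of_mul_eq_one huK
      have keyK : ((b₁ : K) - b₂) * ((b₁ : K) - (R.WK W).toAffine.negY a₂ b₂) =
          ((a₁ : K) - a₂) * (m : K) := by
        have := congrArg (fun a : R.A => (a : K)) key
        simpa [negY] using this
      have hinv : (((u⁻¹ : R.Aˣ) : R.A) : K) = ((b₁ : K) - (R.WK W).toAffine.negY a₂ b₂)⁻¹ :=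
        eq_inv_of_mul_eq_one_right huK
      by_cases hxK : (a₁ : K) = a₂
      · have hyK : (b₁ : K) ≠ (R.WK W).toAffine.negY a₂ b₂ := sub_ne_zero.1 hne0
        have hyyK : (b₁ : K) = b₂ := Y_eq_of_Y_ne h₁ h₂ hxK hyK
        rw [slope_of_Y_ne hxK hyK]
        push_cast
        rw [hinv, hm, ← div_eq_mul_inv]
        have : (R.WK W).toAffine.negY (a₁ : K) b₁ = (R.WK W).toAffine.negY (a₂ : K) b₂ := by
          rw [hxK, hyyK]
        rw [this]
        congr 1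
        push_cast
        rw [hxK]
        simp
        ring
      · rw [slope_of_X_ne hxK]
        push_cast
        rw [hinv, div_eq_iff (sub_ne_zero.2 hxK)]
        have : ((b₁ : K) - b₂) = ((a₁ : K) - a₂) * (m : K) *
            ((b₁ : K) - (R.WK W).toAffine.negY a₂ b₂)⁻¹ := by
          rw [← keyK, mul_assoc, mul_inv_cancel₀ hne0, mul_one]
        rw [this]; ring
    · rw [slope_of_Y_ne hx hy]
      have hne0 : R.π b₁ - (R.Wk W).toAffine.negY (R.π a₁) (R.π b₁) ≠ 0 := by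
        rw [hx, hyy]; rw [hyy] at hy; exact sub_ne_zero.2 hy
      rw [div_eq_iff hne0]
      have hu' : R.π ((u⁻¹ : R.Aˣ) : R.A) * (R.π b₁ - (R.Wk W).toAffine.negY (R.π a₁) (R.π b₁))
          = 1 := by
        have h1 : ((u⁻¹ : R.Aˣ) : R.A) * (b₁ - W.toAffine.negY a₂ b₂) = 1 := by
          rw [← hu]; simp
        have h2 := congrArg R.π h1
        rw [map_mul, map_sub, map_one] at h2
        have : R.π (W.toAffine.negY a₂ b₂) = (R.Wk W).toAffine.negY (R.π a₁) (R.π b₁) := by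
          rw [hx, hyy]; simp [negY]
        rw [this] at h2
        exact h2
      rw [_root_.map_mul, mul_assoc (R.π m), hu', mul_one, hm]
      simp only [map_add, map_sub, map_mul, map_pow, hx, map_a₁, map_a₂, map_a₄]
      ring
  · have hu : IsUnit (a₁ - a₂) := by
      rw [R.isUnit_iff, map_sub]; exact sub_ne_zero.2 hx
    obtain ⟨u, hu⟩ := hu
    have hxK : (a₁ : K) ≠ a₂ := by
      intro h
      exact hx (congrArg R.π (Subtype.ext h))
    refine ⟨(b₁ - b₂) * (u⁻¹ : R.Aˣ), ?_, ?_⟩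
    · rw [slope_of_X_ne hxK, div_eq_iff (sub_ne_zero.2 hxK)]
      have h1 : ((u⁻¹ : R.Aˣ) : R.A) * (a₁ - a₂) = 1 := by rw [← hu]; simp
      have := congrArg (fun a : R.A => (a : K)) h1
      push_cast at this ⊢
      rw [mul_assoc, this, mul_one]
    · rw [slope_of_X_ne hx, div_eq_iff (sub_ne_zero.2 hx)]
      have h1 : ((u⁻¹ : R.Aˣ) : R.A) * (a₁ - a₂) = 1 := by rw [← hu]; simp
      have := congrArg R.π h1
      rw [map_mul, map_sub, map_one] at this
      rw [map_mul, mul_assoc, this, mul_one, map_sub]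

omit [DecidableEq k] in
lemma xN_not_mem (hΔ : R.π W.Δ ≠ 0) {P : (R.WK W).toAffine.Point} (h : xN P ∉ R.A) :
    red hΔ P = 0 := by
  rcases P with _ | ⟨x, y, hP⟩
  · rfl
  · exact red_some_of_not_mem hΔ hP h

/-- both points integral with non-opposite reductions -/
lemma red_add_A1 (hΔ : R.π W.Δ ≠ 0) {a₁ b₁ a₂ b₂ : R.A}
    (h₁ : (R.WK W).toAffine.Nonsingular (a₁ : K) (b₁ : K))
    (h₂ : (R.WK W).toAffine.Nonsingular (a₂ : K) (b₂ : K))
    (hne : ¬(R.π a₁ = R.π a₂ ∧ R.π b₁ = (R.Wk W).toAffine.negY (R.π a₂) (R.π b₂))) :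
    ∃ (a b : R.A) (h : (R.WK W).toAffine.Nonsingular (a : K) (b : K)),
      Point.some (a₁ : K) (b₁ : K) h₁ + Point.some (a₂ : K) (b₂ : K) h₂ = .some (a : K) (b : K) h ∧
      red hΔ (.some (a₁ : K) (b₁ : K) h₁) + red hΔ (.some (a₂ : K) (b₂ : K) h₂) =
        .some (R.π a) (R.π b) (nonsing_k hΔ h.1) := by
  obtain ⟨l, hl, hl'⟩ := slope_int h₁.1 h₂.1 hne
  have hneK : ¬((a₁ : K) = a₂ ∧ (b₁ : K) = (R.WK W).toAffine.negY (a₂ : K) (b₂ : K)) := by
    rintro ⟨e1, e2⟩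
    apply hne
    have e1' : a₁ = a₂ := Subtype.ext e1
    refine ⟨by rw [e1'], ?_⟩
    have e2' : b₁ = W.toAffine.negY a₂ b₂ := by
      apply Subtype.ext
      rw [e2]; simp [negY]
    rw [e2']; simp [negY]
  have eX : (R.WK W).toAffine.addX (a₁ : K) a₂ l = ((W.toAffine.addX a₁ a₂ l : R.A) : K) := by
    simp [addX]
  have eY : (R.WK W).toAffine.addY (a₁ : K) a₂ b₁ l = ((W.toAffine.addY a₁ a₂ b₁ l : R.A) : K) := by
    simp [addY, negAddY, addX, negY]
  have hns := nonsingular_add h₁ h₂ hneK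
  rw [hl, eX, eY] at hns
  refine ⟨W.toAffine.addX a₁ a₂ l, W.toAffine.addY a₁ a₂ b₁ l, hns, ?_, ?_⟩
  · rw [add_some hneK]
    congr 1
    · rw [hl, eX]
    · rw [hl, eY]
  · rw [red_coe, red_coe, add_some hne]
    congr 1
    · rw [hl']; simp [addX]
    · rw [hl']; simp [addY, negAddY, addX, negY]

/-- both points integral with opposite reductions -/
lemma red_add_A2 (hΔ : R.π W.Δ ≠ 0) {a₁ b₁ a₂ b₂ : R.A}
    (h₁ : (R.WK W).toAffine.Nonsingular (a₁ : K) (b₁ : K))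
    (h₂ : (R.WK W).toAffine.Nonsingular (a₂ : K) (b₂ : K))
    (he : R.π a₁ = R.π a₂) (hn : R.π b₁ = (R.Wk W).toAffine.negY (R.π a₂) (R.π b₂)) :
    red hΔ (Point.some (a₁ : K) (b₁ : K) h₁ + Point.some (a₂ : K) (b₂ : K) h₂) = 0 := by
  set P : (R.WK W).toAffine.Point := .some (a₁ : K) (b₁ : K) h₁ with hP
  set Q : (R.WK W).toAffine.Point := .some (a₂ : K) (b₂ : K) h₂ with hQ
  have hP0 : P ≠ 0 := by rw [hP]; exact some_ne_zero h₁
  have hQ0 : Q ≠ 0 := by rw [hQ]; exact some_ne_zero h₂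
  have hg := good (R := R) (W := W) hΔ
  have hNP : (KummerLine.ofCurve (R.WK W).toAffine).N P = a₁ := rfl
  have hNQ : (KummerLine.ofCurve (R.WK W).toAffine).N Q = a₂ := rfl
  have hcong : R.A.valuation ((a₁ : K) - a₂) < 1 := by
    have : ((a₁ : K) - a₂) = ((a₁ - a₂ : R.A) : K) := by simp
    rw [this, val_coe_lt_one, map_sub, he, sub_self]
  -- value of psi
  have hpsi : R.π b₂ = (R.Wk W).toAffine.negY (R.π a₂) (R.π b₂) → 
      R.A.valuation ((KummerLine.ofCurve (R.WK W).toAffine).F1 (a₁ : K) (a₂ : K)) < 1 := by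
    intro h2
    have e : (KummerLine.ofCurve (R.WK W).toAffine).F1 (a₁ : K) (a₂ : K) =
        ((2 * (a₁ + a₂) * (a₁ * a₂) + W.b₂ * (a₁ * a₂) + W.b₄ * (a₁ + a₂) + W.b₆ : R.A) : K) := by
      simp only [KummerLine.F1]
      push_cast
      have e2 : (KummerLine.ofCurve (R.WK W).toAffine).b₂ = ((W.b₂ : R.A) : K) := by
        change (W.map R.A.subtype).b₂ = _
        rw [map_b₂]; rfl
      have e4 : (KummerLine.ofCurve (R.WK W).toAffine).b₄ = ((W.b₄ : R.A) : K) := by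
        change (W.map R.A.subtype).b₄ = _
        rw [map_b₄]; rfl
      have e6 : (KummerLine.ofCurve (R.WK W).toAffine).b₆ = ((W.b₆ : R.A) : K) := by
        change (W.map R.A.subtype).b₆ = _
        rw [map_b₆]; rfl
      rw [e2, e4, e6]
      rfl
    rw [e, val_coe_lt_one]
    have hE : (R.Wk W).toAffine.Equation (R.π a₂) (R.π b₂) := (equation_A h₂.1).map R.π
    rw [equation_iff] at hE
    simp only [negY, map_a₁, map_a₃] at h2
    simp only [map_add, map_mul, he, map_ofNat]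
    simp only [WeierstrassCurve.b₂, WeierstrassCurve.b₄, WeierstrassCurve.b₆, map_add, map_mul,
      map_pow, map_ofNat]
    simp only [map_a₁, map_a₂, map_a₃, map_a₄, map_a₆] at hE
    linear_combination (-4) * hE + (2 * R.π b₂ + R.π W.a₁ * R.π a₂ + R.π W.a₃) * h2
  by_cases h1 : P = -Q
  · rw [h1, neg_add_cancel, red_zero]
  apply xN_not_mem
  change (KummerLine.ofCurve (R.WK W).toAffine).N (P + Q) ∉ R.A
  by_cases h2 : P = Q
  · rw [← h2]
    have hPP : P + P ≠ 0 := by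
      intro h
      apply h1
      rw [← h2]
      exact eq_neg_of_add_eq_zero_left h
    refine cong_dup hg hP0 hPP (hNP ▸ a₁.2) ?_
    have ha : (a₁ : K) = a₂ := congrArg xN h2
    have hb : (b₁ : K) = b₂ := by
      have h3 := h2
      rw [hP, hQ] at h3
      exact (Point.some.inj h3).2
    have hb' : b₁ = b₂ := Subtype.ext hb
    rw [hNP, KummerLine.psi_eq_F1]
    have := hpsi (by rw [← hn, hb'])
    rwa [← ha] at this
  · by_cases h3 : R.π a₁ = R.π a₂ ∧ R.π b₁ = R.π b₂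
    · refine cong_add_of_psi hg hP0 hQ0 h2 h1 (hNP ▸ a₁.2) (hNQ ▸ a₂.2) (by rw [hNP, hNQ]; exact hcong) ?_
      rw [hNP, hNQ]
      apply hpsi
      rw [← hn, h3.2]
    · refine cong_add_of_sub hg hP0 hQ0 h2 h1 (hNP ▸ a₁.2) (hNQ ▸ a₂.2) (by rw [hNP, hNQ]; exact hcong) ?_
      -- apply A1 to P, -Q
      have hnb : (R.WK W).toAffine.negY (a₂ : K) (b₂ : K) = ((W.toAffine.negY a₂ b₂ : R.A) : K) := by
        simp [negY]
      have hQn : -Q = .some (a₂ : K) ((W.toAffine.negY a₂ b₂ : R.A) : K)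
          (hnb ▸ (nonsingular_neg (a₂ : K) (b₂ : K)).2 h₂) := by
        rw [hQ, neg_some]
        congr 1
      obtain ⟨a, b, hab, e1, -⟩ := red_add_A1 hΔ h₁ (hnb ▸ (nonsingular_neg (a₂ : K) (b₂ : K)).2 h₂)
        (by
          rintro ⟨_, e2⟩
          apply h3
          refine ⟨he, ?_⟩
          rw [e2]
          have : R.π (W.toAffine.negY a₂ b₂) = (R.Wk W).toAffine.negY (R.π a₂) (R.π b₂) := by
            simp [negY]
          rw [this, negY_negY])
      rw [sub_eq_add_neg, hQn, e1]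
      exact a.2

lemma red_add_A (hΔ : R.π W.Δ ≠ 0) {P Q : (R.WK W).toAffine.Point} (hP : P ≠ 0) (hQ : Q ≠ 0)
    (hx : xN P ∈ R.A) (hy : xN Q ∈ R.A) : red hΔ (P + Q) = red hΔ P + red hΔ Q := by
  rcases P with _ | ⟨x₁, y₁, h₁⟩
  · exact absurd rfl hP
  rcases Q with _ | ⟨x₂, y₂, h₂⟩
  · exact absurd rfl hQ
  have hx' : x₁ ∈ R.A := hx
  have hy' : x₂ ∈ R.A := hy
  obtain ⟨a₁, rfl⟩ : ∃ a : R.A, (a : K) = x₁ := ⟨⟨x₁, hx'⟩, rfl⟩
  obtain ⟨a₂, rfl⟩ : ∃ a : R.A, (a : K) = x₂ := ⟨⟨x₂, hy'⟩, rfl⟩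
  obtain ⟨b₁, rfl⟩ : ∃ a : R.A, (a : K) = y₁ := ⟨⟨y₁, Y_mem h₁.1 a₁.2⟩, rfl⟩
  obtain ⟨b₂, rfl⟩ : ∃ a : R.A, (a : K) = y₂ := ⟨⟨y₂, Y_mem h₂.1 a₂.2⟩, rfl⟩
  by_cases hne : R.π a₁ = R.π a₂ ∧ R.π b₁ = (R.Wk W).toAffine.negY (R.π a₂) (R.π b₂)
  · rw [red_add_A2 hΔ h₁ h₂ hne.1 hne.2, red_coe, red_coe, add_of_Y_eq hne.1 hne.2]
  · obtain ⟨a, b, h, e1, e2⟩ := red_add_A1 hΔ h₁ h₂ hne
    rw [e1, e2, red_coe]

lemma red_add_B (hΔ : R.π W.Δ ≠ 0) {P Q : (R.WK W).toAffine.Point} (hP : P ≠ 0) (hQ : Q ≠ 0)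
    (hx : xN P ∉ R.A) (hy : xN Q ∉ R.A) : red hΔ (P + Q) = 0 := by
  have hg := good (R := R) (W := W) hΔ
  by_cases h1 : P = -Q
  · rw [h1, neg_add_cancel, red_zero]
  apply xN_not_mem
  by_cases h2 : P = Q
  · rw [← h2]
    refine kernel_dup hg hP ?_ hx
    intro h
    apply h1
    rw [← h2]
    exact eq_neg_of_add_eq_zero_left h
  · exact kernel_add hg hP hQ h2 h1 hx hy

lemma red_add_C (hΔ : R.π W.Δ ≠ 0) {P Q : (R.WK W).toAffine.Point} (hP : P ≠ 0) (hQ : Q ≠ 0)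
    (hx : xN P ∈ R.A) (hy : xN Q ∉ R.A) : red hΔ (P + Q) = red hΔ P := by
  have hR0 : P + Q ≠ 0 := by
    intro h
    have : P = -Q := eq_neg_of_add_eq_zero_left h
    rw [this, xN_neg] at hx
    exact hy hx
  have hQn : -Q ≠ 0 := neg_ne_zero.2 hQ
  have hPn : -P ≠ 0 := neg_ne_zero.2 hP
  have hR : xN (P + Q) ∈ R.A := by
    by_contra hR
    have h1 := red_add_B hΔ hR0 hQn hR (by rwa [xN_neg])
    rw [add_neg_cancel_right] at h1
    rcases P with _ | ⟨x₁, y₁, h₁⟩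
    · exact hP rfl
    · rw [red_some_of_mem hΔ h₁ hx] at h1
      exact some_ne_zero _ h1
  have h2 := red_add_A hΔ hR0 hPn hR (by rwa [xN_neg])
  have h3 : P + Q + -P = Q := by abel
  rw [h3, xN_not_mem hΔ hy, red_neg] at h2
  exact (sub_eq_zero.1 (by rw [sub_eq_add_neg]; exact h2.symm))

theorem red_add (hΔ : R.π W.Δ ≠ 0) (P Q : (R.WK W).toAffine.Point) :
    red hΔ (P + Q) = red hΔ P + red hΔ Q := by
  by_cases hP : P = 0
  · rw [hP, _root_.zero_add, red_zero, _root_.zero_add]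
  by_cases hQ : Q = 0
  · rw [hQ, _root_.add_zero, red_zero, _root_.add_zero]
  by_cases hx : xN P ∈ R.A
  · by_cases hy : xN Q ∈ R.A
    · exact red_add_A hΔ hP hQ hx hy
    · rw [red_add_C hΔ hP hQ hx hy, xN_not_mem hΔ hy, _root_.add_zero]
  · by_cases hy : xN Q ∈ R.A
    · rw [_root_.add_comm, red_add_C hΔ hQ hP hy hx, xN_not_mem hΔ hx, _root_.zero_add]
    · rw [red_add_B hΔ hP hQ hx hy, xN_not_mem hΔ hx, xN_not_mem hΔ hy, _root_.add_zero]

/-- the reduction homomorphism -/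
noncomputable def redHom (hΔ : R.π W.Δ ≠ 0) :
    (R.WK W).toAffine.Point →+ (R.Wk W).toAffine.Point where
  toFun := red hΔ
  map_zero' := rfl
  map_add' := red_add hΔ

lemma red_eq_zero_iff (hΔ : R.π W.Δ ≠ 0) {P : (R.WK W).toAffine.Point} :
    redHom hΔ P = 0 ↔ P = 0 ∨ xN P ∉ R.A := by
  constructor
  · intro h
    by_contra hcon
    rw [not_or, not_not] at hcon
    obtain ⟨h1, h2⟩ := hcon
    rcases P with _ | ⟨x₁, y₁, h₁⟩
    · exact h1 rfl
    · have h' : red hΔ (Point.some x₁ y₁ h₁) = 0 := h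
      rw [red_some_of_mem hΔ h₁ h2] at h'
      exact some_ne_zero _ h'
  · rintro (h | h)
    · rw [h, _root_.map_zero]
    · exact xN_not_mem hΔ h

end RedData

end Fermat.Agent.ECFrob
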