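import Fermat.Agent.ECFrob.Gen

/-!
# Specialization homomorphisms
-/

set_option autoImplicit false
set_option linter.unusedSectionVars false
set_option linter.style.haveILetI false

noncomputable section

namespace Fermat.Agent.ECFrob

open WeierstrassCurve WeierstrassCurve.Affine WeierstrassCurve.Affine.Point
open Fermat.Agent.ECRed Fermat.Agent.Curves AlgebraicCurve Polynomial
open scoped Polynomial.Bivariate

namespace RedData

variable {K : Type*} [Field K] {k : Type*} [Field k] [DecidableEq K] [DecidableEq k]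
variable (R : RedData K k) {W : WeierstrassCurve R.A} (hΔ : R.π W.Δ ≠ 0)
  {EK : WeierstrassCurve K} {Ek : WeierstrassCurve k} (hK : R.WK W = EK) (hk : R.Wk W = Ek)

/-- the reduction homomorphism with free choice of the two fibres -/
def rhom : EK.toAffine.Point →+ Ek.toAffine.Point := by
  subst hK hk; exact redHom hΔ

lemma rhom_eq_zero_iff {P : EK.toAffine.Point} :
    R.rhom hΔ hK hk P = 0 ↔ P = 0 ∨ xN P ∉ R.A := by
  subst hK hk; exact red_eq_zero_iff hΔ

lemma Y_mem' {x y : K} (h : EK.toAffine.Nonsingular x y) (hx : x ∈ R.A) (hK : R.WK W = EK) :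
    y ∈ R.A := by
  subst hK; exact Y_mem h.1 hx

lemma rhom_some {x y : K} (h : EK.toAffine.Nonsingular x y) (hx : x ∈ R.A) :
    ∃ h' : Ek.toAffine.Nonsingular (R.π ⟨x, hx⟩) (R.π ⟨y, R.Y_mem' h hx hK⟩),
      R.rhom hΔ hK hk (.some x y h) = .some _ _ h' := by
  subst hK hk
  exact ⟨_, red_some_of_mem hΔ h hx⟩

/-- equivariance of the reduction -/
lemma rhom_pmap (φ : K →+* K) (ψ : k →+* k) (hφ : ∀ x, φ x ∈ R.A ↔ x ∈ R.A)
    (hπ : ∀ a : R.A, R.π ⟨φ a, (hφ a).2 a.2⟩ = ψ (R.π a)) (hφE : EK.map φ = EK)
    (hψE : Ek.map ψ = Ek) (P : EK.toAffine.Point) :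
    R.rhom hΔ hK hk (pmap φ hφE P) = pmap ψ hψE (R.rhom hΔ hK hk P) := by
  rcases P with _ | ⟨x, y, hP⟩
  · have h0 : pmap φ hφE 0 = 0 := pmap_zero _ _
    have h1 : R.rhom hΔ hK hk 0 = 0 := _root_.map_zero _
    have h2 : pmap ψ hψE 0 = 0 := pmap_zero _ _
    change R.rhom hΔ hK hk (pmap φ hφE 0) = pmap ψ hψE (R.rhom hΔ hK hk 0)
    rw [h0, h1, h2]
  · obtain ⟨h', e⟩ := pmap_some φ hφE hP
    rw [e]
    by_cases hx : x ∈ R.A
    · obtain ⟨h1, e1⟩ := R.rhom_some hΔ hK hk hP hx
      obtain ⟨h2, e2⟩ := R.rhom_some hΔ hK hk h' ((hφ x).2 hx)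
      rw [e1, e2]
      obtain ⟨h3, e3⟩ := pmap_some ψ hψE h1
      rw [e3]
      congr 1
      · exact hπ ⟨x, hx⟩
      · exact hπ ⟨y, R.Y_mem' hP hx hK⟩
    · have e1 : R.rhom hΔ hK hk (.some x y hP) = 0 := by
        rw [rhom_eq_zero_iff]; right; simpa using hx
      have e2 : R.rhom hΔ hK hk (.some (φ x) (φ y) h') = 0 := by
        rw [rhom_eq_zero_iff]; right; rw [xN_some, hφ]; exact hx
      rw [e1, e2, pmap_zero]

end RedData

section Spec

variable {k : Type*} [Field k] [IsAlgClosed k] [DecidableEq k] {F : Type*} [Field F] [Algebra k F]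
  [IsFunctionField k F] [DecidableEq F] {E : WeierstrassCurve k} (hΔ : E.Δ ≠ 0)

/-- specialization at a place -/
def spec (w : Place k F) : (E.map (algebraMap k F)).toAffine.Point →+ E.toAffine.Point :=
  (placeData w).rhom (redΔ w hΔ) (redK w E) (redk w E)

lemma spec_eq_zero_iff (w : Place k F) {P : (E.map (algebraMap k F)).toAffine.Point} :
    spec hΔ w P = 0 ↔ P = 0 ∨ xN P ∉ w.toValuationSubring :=
  (placeData w).rhom_eq_zero_iff (redΔ w hΔ) (redK w E) (redk w E)

lemma spec_some (w : Place k F) {x y : F}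
    (h : (E.map (algebraMap k F)).toAffine.Nonsingular x y) (hx : x ∈ w.toValuationSubring) :
    ∃ h' : E.toAffine.Nonsingular (value w x) (value w y), spec hΔ w (.some x y h) = .some _ _ h' :=
  (placeData w).rhom_some (redΔ w hΔ) (redK w E) (redk w E) h hx

end Spec

section Existence

variable {k : Type*} [Field k] [IsAlgClosed k] [DecidableEq k] {E : WeierstrassCurve k}
  (hΔ : E.Δ ≠ 0)

/-- every point of `E` is the specialization of the generic point at some place -/
theorem exists_spec [DecidableEq (FF E)] (T : E.toAffine.Point) :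
    ∃ w : Place k (FF E), spec hΔ w (gen E hΔ) = T := by
  rcases T with _ | ⟨x₀, y₀, hT⟩
  · -- infinite place
    have ht := transcendental_genX E
    have ht' : Transcendental k (genX E)⁻¹ := fun h'' => ht (by simpa using h''.inv)
    obtain ⟨w, hw⟩ := exists_ord_pos_of_transcendental ht'
    refine ⟨w, ?_⟩
    change spec hΔ w (gen E hΔ) = 0
    rw [spec_eq_zero_iff]
    right
    rw [gen, xN_some]
    intro hmem
    have h0 : genX E ≠ 0 := by
      intro h; rw [h] at ht; exact ht isAlgebraic_zero
    rw [mem_iff_ord w h0] at hmem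
    rw [w.ord_inv] at hw
    omega
  · -- evaluation homomorphism of the coordinate ring
    have hev : eval₂ (aeval (R := k) x₀).toRingHom y₀ E.toAffine.polynomial = 0 := by
      have h := hT.1
      rw [equation_iff] at h
      rw [polynomial_eq]
      simp only [eval₂_add, eval₂_sub, eval₂_mul, eval₂_pow, eval₂_C, eval₂_X]
      change y₀ ^ 2 + aeval x₀ (C E.a₁ * X + C E.a₃) * y₀ -
        aeval x₀ (X ^ 3 + C E.a₂ * X ^ 2 + C E.a₄ * X + C E.a₆) = 0
      simp only [map_add, map_mul, map_pow, aeval_C, aeval_X, Algebra.algebraMap_self,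
        RingHom.id_apply]
      linear_combination h
    let ev : E.toAffine.CoordinateRing →+* k :=
      AdjoinRoot.lift (aeval (R := k) x₀).toRingHom y₀ hev
    have ev1 : ∀ p : k[X], ev (CoordinateRing.mk E.toAffine (C p)) = aeval x₀ p :=
      fun p => AdjoinRoot.lift_of hev
    have ev2 : ev (CoordinateRing.mk E.toAffine Y) = y₀ := AdjoinRoot.lift_root hev
    -- the image of the coordinate ring in `F`
    let ι : E.toAffine.CoordinateRing →+* FF E := algebraMap _ _
    have hι : Function.Injective ι := IsFractionRing.injective _ _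
    let e : E.toAffine.CoordinateRing ≃+* ι.range :=
      RingEquiv.ofBijective ι.rangeRestrict ⟨fun a b hab => hι (congrArg Subtype.val hab),
        ι.rangeRestrict_surjective⟩
    let M : Ideal ι.range := (RingHom.ker ev).comap e.symm.toRingHom
    have hM : M ≠ ⊤ := by
      intro h
      have : (1 : ι.range) ∈ M := by rw [h]; exact Submodule.mem_top
      rw [Ideal.mem_comap, map_one, RingHom.mem_ker, map_one] at this
      exact one_ne_zero this
    obtain ⟨V, hAV, hMV⟩ := Ideal.image_subset_nonunits_valuationSubring (A := ι.range) M hM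
    have hmemM : ∀ z : E.toAffine.CoordinateRing, ev z = 0 → ι z ∈ V.nonunits := by
      intro z hz
      refine hMV ⟨e z, ?_, rfl⟩
      change e.symm (e z) ∈ RingHom.ker ev
      rw [RingEquiv.symm_apply_apply, RingHom.mem_ker]
      exact hz
    have hx1 : genX E - algebraMap k (FF E) x₀ ∈ V.nonunits := by
      have h1 : ι (CoordinateRing.mk E.toAffine (C (X - C x₀))) ∈ V.nonunits := by
        apply hmemM
        rw [ev1]
        simp
      have h2 : ι (CoordinateRing.mk E.toAffine (C (X - C x₀))) =
          genX E - algebraMap k (FF E) x₀ := by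
        change algebraMap E.toAffine.CoordinateRing (FF E) _ = _
        rw [algebraMap_poly]
        simp
      rwa [h2] at h1
    have hy1 : genY E - algebraMap k (FF E) y₀ ∈ V.nonunits := by
      have h1 : ι (CoordinateRing.mk E.toAffine Y - CoordinateRing.mk E.toAffine (C (C y₀))) ∈
          V.nonunits := by
        apply hmemM
        rw [map_sub, ev2, ev1]
        simp
      have h2 : ι (CoordinateRing.mk E.toAffine Y - CoordinateRing.mk E.toAffine (C (C y₀))) =
          genY E - algebraMap k (FF E) y₀ := by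
        rw [map_sub]
        change genY E - algebraMap E.toAffine.CoordinateRing (FF E) _ = _
        rw [algebraMap_poly, aeval_C]
      rwa [h2] at h1
    have hVtop : V ≠ ⊤ := by
      rintro rfl
      have h0 : genX E - algebraMap k (FF E) x₀ ≠ 0 := by
        intro h
        rw [sub_eq_zero] at h
        have := transcendental_genX E
        rw [h] at this
        exact this (isAlgebraic_algebraMap x₀)
      rw [ValuationSubring.mem_nonunits_iff] at hx1
      have h2 : (genX E - algebraMap k (FF E) x₀)⁻¹ ∈ (⊤ : ValuationSubring (FF E)) :=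
        ValuationSubring.mem_top _
      rw [← ValuationSubring.valuation_le_one_iff, map_inv₀, inv_le_one₀
        (zero_lt_iff.mpr (((⊤ : ValuationSubring (FF E)).valuation.ne_zero_iff).mpr h0))] at h2
      exact absurd hx1 (not_lt.mpr h2)
    obtain ⟨w, rfl⟩ := exists_place_of_valuationSubring V (k := k)
      (fun c => hAV ⟨CoordinateRing.mk E.toAffine (C (C c)), rfl⟩) hVtop
    have hnon : ∀ z : FF E, z ∈ w.toValuationSubring.nonunits → w.adicValuation z < 1 := by
      intro z hz
      rw [ValuationSubring.mem_nonunits_iff_exists_mem_maximalIdeal] at hz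
      obtain ⟨h2, h3⟩ := hz
      rw [IsLocalRing.mem_maximalIdeal, mem_nonunits_iff, ← w.adicValuation_coe_eq_one_iff] at h3
      exact lt_of_le_of_ne ((mem_iff_val w).mp h2) h3
    have hxm : genX E ∈ w.toValuationSubring := hAV ⟨CoordinateRing.mk E.toAffine (C X), rfl⟩
    have hym : genY E ∈ w.toValuationSubring := hAV ⟨CoordinateRing.mk E.toAffine Y, rfl⟩
    have vx : value w (genX E) = x₀ := (value_eq_iff w hxm x₀).2 (hnon _ hx1)
    have vy : value w (genY E) = y₀ := (value_eq_iff w hym y₀).2 (hnon _ hy1)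
    refine ⟨w, ?_⟩
    obtain ⟨h', e'⟩ := spec_some hΔ w ((equation_iff_nonsingular_of_Δ_ne_zero (EF_Δ E hΔ)).1
      (gen_equation E)) hxm
    rw [gen, e']
    congr 1

end Existence

end Fermat.Agent.ECFrob
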